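import Mathlib
import Fermat.Prelude.Def_CuspForm_IntegralStructure

/-!
Shared definitions for the S23 (integral structure) project.  Owned by helper23; copy verbatim.
-/

set_option autoImplicit false

namespace Fermat.Agent.S23

/-- Complex power series all of whose coefficients are integers. -/
def IntSeries : Set (PowerSeries ℂ) :=
  {p | ∀ n : ℕ, ∃ m : ℤ, PowerSeries.coeff n p = (m : ℂ)}

end Fermat.Agent.S23
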