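import Mathlib
import Fermat.Agent.S23.Defs

/-!
# P1: level-one modular forms are spanned by forms with integer `q`-expansions
-/

set_option autoImplicit false

open UpperHalfPlane ModularForm EisensteinSeries
open scoped MatrixGroups

namespace Fermat.Agent.S23

/-- `IntSeries` is the range of `PowerSeries.map (Int.castRingHom ℂ)`. -/
theorem levelone_mem_intSeries_iff (p : PowerSeries ℂ) :
    p ∈ IntSeries ↔ p ∈ (PowerSeries.map (Int.castRingHom ℂ)).range := by
  constructor
  · intro h
    choose m hm using h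
    refine ⟨PowerSeries.mk m, ?_⟩
    ext n
    simp [hm n]
  · rintro ⟨q, rfl⟩ n
    exact ⟨PowerSeries.coeff n q, by simp⟩

theorem levelone_intSeries_mul {p q : PowerSeries ℂ} (hp : p ∈ IntSeries) (hq : q ∈ IntSeries) :
    p * q ∈ IntSeries := by
  rw [levelone_mem_intSeries_iff] at *
  exact Subring.mul_mem _ hp hq

theorem levelone_intSeries_pow {p : PowerSeries ℂ} (hp : p ∈ IntSeries) (n : ℕ) :
    p ^ n ∈ IntSeries := by
  rw [levelone_mem_intSeries_iff] at *
  exact Subring.pow_mem _ hp n

theorem levelone_intSeries_one : (1 : PowerSeries ℂ) ∈ IntSeries := by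
  rw [levelone_mem_intSeries_iff]
  exact Subring.one_mem _

theorem levelone_E4_int : qExpansion 1 E₄ ∈ IntSeries := by
  intro n
  rw [E_qExpansion_coeff (by norm_num) ⟨2, rfl⟩]
  split_ifs with h
  · exact ⟨1, by simp⟩
  · refine ⟨240 * (ArithmeticFunction.sigma 3 n : ℤ), ?_⟩
    norm_num [show bernoulli 4 = -1 / 30 by decide +kernel]

theorem levelone_E6_int : qExpansion 1 E₆ ∈ IntSeries := by
  intro n
  rw [E_qExpansion_coeff (by norm_num) ⟨3, rfl⟩]
  split_ifs with h
  · exact ⟨1, by simp⟩
  · refine ⟨-504 * (ArithmeticFunction.sigma 5 n : ℤ), ?_⟩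
    norm_num [show bernoulli 6 = 1 / 42 by decide +kernel]

/-- The set of level one forms with integral `q`-expansion. -/
def levelOneIntSet (k : ℤ) : Set (ModularForm 𝒮ℒ k) :=
  {f | ∀ n, ∃ m : ℤ, (qExpansion 1 f).coeff n = m}

theorem levelone_mem_intSet_iff {k : ℤ} (f : ModularForm 𝒮ℒ k) :
    f ∈ levelOneIntSet k ↔ qExpansion 1 f ∈ IntSeries := Iff.rfl

theorem levelone_mul_mem {a b : ℤ} {f : ModularForm 𝒮ℒ a} {g : ModularForm 𝒮ℒ b}
    (hf : f ∈ levelOneIntSet a) (hg : g ∈ levelOneIntSet b) : f.mul g ∈ levelOneIntSet (a + b) := by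
  rw [levelone_mem_intSet_iff] at *
  rw [ModularForm.qExpansion_mul one_pos one_mem_strictPeriods_SL]
  exact levelone_intSeries_mul hf hg

theorem levelone_pow_mem {a : ℤ} {f : ModularForm 𝒮ℒ a} (hf : f ∈ levelOneIntSet a) (n : ℕ) :
    f.pow n ∈ levelOneIntSet (n * a) := by
  rw [levelone_mem_intSet_iff] at *
  rw [ModularForm.qExpansion_pow one_pos one_mem_strictPeriods_SL]
  exact levelone_intSeries_pow hf n

theorem levelone_mcast_mem {a b : ℤ} (h : a = b) {f : ModularForm 𝒮ℒ a}
    (hf : f ∈ levelOneIntSet a) : mcast h f ∈ levelOneIntSet b := by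
  subst h
  exact hf

/-- The monomial `E₄^a E₆^b`. -/
noncomputable def levelOneMonomial (a b : ℕ) : ModularForm 𝒮ℒ ((a : ℤ) * 4 + (b : ℤ) * 6) :=
  (E₄.pow a).mul (E₆.pow b)

theorem levelone_monomial_mem (a b : ℕ) :
    levelOneMonomial a b ∈ levelOneIntSet ((a : ℤ) * 4 + (b : ℤ) * 6) :=
  levelone_mul_mem (levelone_pow_mem levelone_E4_int a) (levelone_pow_mem levelone_E6_int b)

theorem levelone_monomial_coeff_zero (a b : ℕ) :
    (qExpansion 1 (levelOneMonomial a b)).coeff 0 = 1 := by
  rw [levelOneMonomial, ModularForm.qExpansion_mul one_pos one_mem_strictPeriods_SL,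
    ModularForm.qExpansion_pow one_pos one_mem_strictPeriods_SL,
    ModularForm.qExpansion_pow one_pos one_mem_strictPeriods_SL]
  have h4 := E_qExpansion_coeff_zero (k := 4) (by norm_num) ⟨2, rfl⟩
  have h6 := E_qExpansion_coeff_zero (k := 6) (by norm_num) ⟨3, rfl⟩
  simp only [PowerSeries.coeff_zero_eq_constantCoeff] at h4 h6 ⊢
  simp [h4, h6]

/-- Multiplication by `1728 Δ = E₄³ - E₆²`, as a linear map raising the weight by 12. -/
noncomputable def levelOneMulDelta (k : ℤ) : ModularForm 𝒮ℒ (k - 12) →ₗ[ℂ] ModularForm 𝒮ℒ k where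
  toFun g := (1 / 1728 : ℂ) •
    (mcast (by ring) ((E₄.pow 3).mul g) - mcast (by ring) ((E₆.pow 2).mul g))
  map_add' g₁ g₂ := by
    ext z
    simp [mcast_apply]
    ring
  map_smul' c g := by
    ext z
    simp [mcast_apply]
    ring

theorem levelone_mulDelta_apply (k : ℤ) (g : ModularForm 𝒮ℒ (k - 12)) (z : ℍ) :
    levelOneMulDelta k g z = discriminant z * g z := by
  rw [discriminant_eq_E₄_cube_sub_E₆_sq]
  have h43 : (E₄.pow 3) z = E₄ z ^ 3 := by rw [ModularForm.coe_pow]; rfl
  have h62 : (E₆.pow 2) z = E₆ z ^ 2 := by rw [ModularForm.coe_pow]; rfl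
  simp [levelOneMulDelta, mcast_apply, h43, h62]
  ring

theorem levelone_mulDelta_mem (k : ℤ) {g : ModularForm 𝒮ℒ (k - 12)}
    (hg : g ∈ levelOneIntSet (k - 12)) :
    levelOneMulDelta k g ∈ Submodule.span ℂ (levelOneIntSet k) := by
  refine Submodule.smul_mem _ _ (Submodule.sub_mem _ (Submodule.subset_span ?_)
    (Submodule.subset_span ?_))
  · exact levelone_mcast_mem _ (levelone_mul_mem (levelone_pow_mem levelone_E4_int 3) hg)
  · exact levelone_mcast_mem _ (levelone_mul_mem (levelone_pow_mem levelone_E6_int 2) hg)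

theorem levelone_exists_monomial (k : ℕ) (hk : 4 ≤ k) (hk2 : Even k) :
    ∃ a b : ℕ, (a : ℤ) * 4 + (b : ℤ) * 6 = (k : ℤ) := by
  obtain ⟨m, rfl⟩ := hk2
  rcases Nat.even_or_odd m with ⟨j, rfl⟩ | ⟨j, rfl⟩
  · exact ⟨j, 0, by push_cast; ring⟩
  · have hj : 1 ≤ j := by omega
    exact ⟨j - 1, 1, by push_cast [Nat.cast_sub hj]; ring⟩

theorem levelone_span_nat (k : ℕ) : Submodule.span ℂ (levelOneIntSet (k : ℤ)) = ⊤ := by
  induction k using Nat.strong_induction_on with
  | _ k ih =>
  rw [eq_top_iff]
  rintro f -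
  rcases Nat.even_or_odd k with hk2 | hk2
  · rcases lt_or_ge k 4 with hk4 | hk4
    · -- k = 0 or k = 2
      have hk : k = 0 ∨ k = 2 := by
        obtain ⟨m, rfl⟩ := hk2
        omega
      rcases hk with rfl | rfl
      · obtain ⟨c, hc⟩ := ModularFormClass.levelOne_weight_zero_const f
        have hf : f = c • (1 : ModularForm 𝒮ℒ 0) := by
          ext z
          simp [hc]
        rw [hf]
        refine Submodule.smul_mem _ _ (Submodule.subset_span ?_)
        show qExpansion 1 (1 : ModularForm 𝒮ℒ 0) ∈ IntSeries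
        rw [ModularForm.qExpansion_one]
        exact levelone_intSeries_one
      · have hf : f = 0 := rank_zero_iff_forall_zero.mp levelOne_weight_two_rank_zero f
        rw [hf]
        exact Submodule.zero_mem _
    · obtain ⟨a, b, hab⟩ := levelone_exists_monomial k hk4 hk2
      set Mon : ModularForm 𝒮ℒ (k : ℤ) := mcast hab (levelOneMonomial a b) with hMon
      have hMon_mem : Mon ∈ levelOneIntSet (k : ℤ) :=
        levelone_mcast_mem _ (levelone_monomial_mem a b)
      have hMon0 : (qExpansion 1 Mon).coeff 0 = 1 := levelone_monomial_coeff_zero a b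
      have hcusp := (isCuspForm_iff_coeffZero_eq_zero _).mp (sub_smul_isCuspForm f Mon hMon0)
      set h := f - (qExpansion 1 f).coeff 0 • Mon with hh
      set g := CuspForm.discriminantEquiv (toCuspForm h hcusp) with hg
      have hfg : f = (qExpansion 1 f).coeff 0 • Mon + levelOneMulDelta (k : ℤ) g := by
        have : h = levelOneMulDelta (k : ℤ) g := by
          ext z
          rw [levelone_mulDelta_apply, hg, discriminant_mul_discriminantEquiv_apply]
          rfl
        rw [← this, hh]
        abel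
      rw [hfg]
      refine Submodule.add_mem _ (Submodule.smul_mem _ _ (Submodule.subset_span hMon_mem)) ?_
      rcases lt_or_ge k 12 with hk12 | hk12
      · have hg0 : g = 0 :=
          rank_zero_iff_forall_zero.mp (levelOne_neg_weight_rank_zero (by omega)) g
        rw [hg0, map_zero]
        exact Submodule.zero_mem _
      · have hcast : ((k : ℤ) - 12) = ((k - 12 : ℕ) : ℤ) := by omega
        have key : ∀ g' : ModularForm 𝒮ℒ ((k : ℤ) - 12),
            g' ∈ Submodule.span ℂ (levelOneIntSet ((k : ℤ) - 12)) := by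
          rw [hcast]
          intro g'
          rw [ih (k - 12) (by omega)]
          exact Submodule.mem_top
        have hle : Submodule.span ℂ (levelOneIntSet ((k : ℤ) - 12)) ≤
            (Submodule.span ℂ (levelOneIntSet (k : ℤ))).comap (levelOneMulDelta (k : ℤ)) :=
          Submodule.span_le.mpr fun g' hg' => levelone_mulDelta_mem (k : ℤ) hg'
        exact hle (key g)
  · have hf : f = 0 := levelOne_odd_weight_eq_zero (by exact_mod_cast hk2) f
    rw [hf]
    exact Submodule.zero_mem _

/-- **P1.** Level one modular forms are spanned by forms with integral `q`-expansion. -/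
theorem levelOne_span_int (k : ℤ) :
    Submodule.span ℂ {f : ModularForm 𝒮ℒ k | ∀ n, ∃ m : ℤ, (qExpansion 1 f).coeff n = m} = ⊤ := by
  rcases lt_or_ge k 0 with hk | hk
  · rw [eq_top_iff]
    rintro f -
    have hf : f = 0 := rank_zero_iff_forall_zero.mp (levelOne_neg_weight_rank_zero hk) f
    rw [hf]
    exact Submodule.zero_mem _
  · lift k to ℕ using hk
    exact levelone_span_nat k

/-- The `q`-expansion as a linear map on level one forms. -/
noncomputable def levelOneQExpLin (k : ℤ) : ModularForm 𝒮ℒ k →ₗ[ℂ] PowerSeries ℂ where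
  toFun f := qExpansion 1 f
  map_add' f g := ModularForm.qExpansion_add one_pos one_mem_strictPeriods_SL f g
  map_smul' c f := ModularForm.qExpansion_smul one_pos one_mem_strictPeriods_SL c f

theorem levelone_map_smul (σ : ℂ →+* ℂ) (c : ℂ) (p : PowerSeries ℂ) :
    (c • p).map σ = σ c • p.map σ := by
  ext n
  simp

theorem levelone_map_of_int (σ : ℂ →+* ℂ) {p : PowerSeries ℂ} (hp : p ∈ IntSeries) :
    p.map σ = p := by
  ext n
  obtain ⟨m, hm⟩ := hp n
  simp [hm]

/-- **P1, corollary.** Level one forms are stable under ring endomorphisms of `ℂ` acting on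
`q`-expansions. -/
theorem levelOne_conj (σ : ℂ →+* ℂ) {k : ℤ} (G : ModularForm 𝒮ℒ k) :
    ∃ G' : ModularForm 𝒮ℒ k, qExpansion 1 G' = (qExpansion 1 G).map σ := by
  have hG : G ∈ Submodule.span ℂ
      {f : ModularForm 𝒮ℒ k | ∀ n, ∃ m : ℤ, (qExpansion 1 f).coeff n = m} := by
    rw [levelOne_span_int]; exact Submodule.mem_top
  induction hG using Submodule.span_induction with
  | mem f hf => exact ⟨f, (levelone_map_of_int σ hf).symm⟩
  | zero =>
    refine ⟨0, ?_⟩
    rw [FunLike.coe_zero, qExpansion_zero]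
    simp
  | add f g _ _ hf hg =>
    obtain ⟨f', hf'⟩ := hf
    obtain ⟨g', hg'⟩ := hg
    refine ⟨f' + g', ?_⟩
    rw [FunLike.coe_add, FunLike.coe_add,
      ModularForm.qExpansion_add one_pos one_mem_strictPeriods_SL,
      ModularForm.qExpansion_add one_pos one_mem_strictPeriods_SL, hf', hg', map_add]
  | smul c f _ hf =>
    obtain ⟨f', hf'⟩ := hf
    refine ⟨σ c • f', ?_⟩
    rw [FunLike.coe_smul, FunLike.coe_smul,
      ModularForm.qExpansion_smul one_pos one_mem_strictPeriods_SL,
      ModularForm.qExpansion_smul one_pos one_mem_strictPeriods_SL, hf', levelone_map_smul]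

/-- **P1, corollary.** The `q`-expansion of a level one form is a complex combination of
integral power series. -/
theorem levelOne_qExpansion_mem_span {k : ℤ} (G : ModularForm 𝒮ℒ k) :
    qExpansion 1 G ∈ Submodule.span ℂ IntSeries := by
  have hG : G ∈ Submodule.span ℂ
      {f : ModularForm 𝒮ℒ k | ∀ n, ∃ m : ℤ, (qExpansion 1 f).coeff n = m} := by
    rw [levelOne_span_int]; exact Submodule.mem_top
  have hle : Submodule.span ℂ
      {f : ModularForm 𝒮ℒ k | ∀ n, ∃ m : ℤ, (qExpansion 1 f).coeff n = m} ≤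
      (Submodule.span ℂ IntSeries).comap (levelOneQExpLin k) :=
    Submodule.span_le.mpr fun f hf => Submodule.subset_span hf
  exact hle hG

end Fermat.Agent.S23
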