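import Mathlib

/-!
# Field automorphisms of `ℂ` detect rationality  (helper47, S23 task (A))

`exists_ringEquiv_ne`: every complex number that is not rational is moved by some ring
automorphism of `ℂ`.
-/

set_option autoImplicit false

namespace Fermat.Agent.S23

open MvPolynomial

/-- Extension of a ring automorphism of the polynomial subalgebra on a transcendence basis
to all of the algebraically closed field. -/
theorem h47_exists_ringEquiv_of_basis {R : Type} {K : Type} [Field R] [Field K] [Algebra R K]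
    [IsAlgClosed K] {ι : Type} (v : ι → K) (hv : IsTranscendenceBasis R v)
    (φ : MvPolynomial ι R ≃+* MvPolynomial ι R) :
    ∃ σ : K ≃+* K, ∀ p : MvPolynomial ι R,
      σ (MvPolynomial.aeval v p) = MvPolynomial.aeval v (φ p) := by
  let _ := IsAlgClosed.isAlgClosure_of_transcendence_basis v hv
  let e : Algebra.adjoin R (Set.range v) ≃+* Algebra.adjoin R (Set.range v) :=
    (hv.1.aevalEquiv.symm.toRingEquiv.trans φ).trans hv.1.aevalEquiv.toRingEquiv
  refine ⟨IsAlgClosure.equivOfEquiv K K e, fun p => ?_⟩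
  have h1 : (MvPolynomial.aeval v p : K) =
      algebraMap (Algebra.adjoin R (Set.range v)) K (hv.1.aevalEquiv p) := by
    rw [AlgebraicIndependent.algebraMap_aevalEquiv]
  have h2 : (MvPolynomial.aeval v (φ p) : K) =
      algebraMap (Algebra.adjoin R (Set.range v)) K (hv.1.aevalEquiv (φ p)) := by
    rw [AlgebraicIndependent.algebraMap_aevalEquiv]
  rw [h1, h2, IsAlgClosure.equivOfEquiv_algebraMap]
  congr 1
  simp [e]

/-- A transcendental complex number is moved by an automorphism. -/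
theorem h47_exists_ringEquiv_ne_of_transcendental (c : ℂ) (hc : Transcendental ℚ c) :
    ∃ σ : ℂ ≃+* ℂ, σ c ≠ c := by
  classical
  have hind : AlgebraicIndepOn ℚ id ({c} : Set ℂ) :=
    algebraicIndependent_unique_type_iff.mpr hc
  obtain ⟨t, hct, ht⟩ := exists_isTranscendenceBasis_superset hind
  let i₀ : t := ⟨c, hct (Set.mem_singleton c)⟩
  -- the translation automorphism `X i ↦ X i + δ_{i, i₀}`
  let f : MvPolynomial t ℚ →ₐ[ℚ] MvPolynomial t ℚ :=
    MvPolynomial.aeval fun i => X i + C (if i = i₀ then (1 : ℚ) else 0)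
  let g : MvPolynomial t ℚ →ₐ[ℚ] MvPolynomial t ℚ :=
    MvPolynomial.aeval fun i => X i - C (if i = i₀ then (1 : ℚ) else 0)
  have hfg : f.comp g = AlgHom.id ℚ _ := by
    apply MvPolynomial.algHom_ext
    intro i
    simp [f, g]
  have hgf : g.comp f = AlgHom.id ℚ _ := by
    apply MvPolynomial.algHom_ext
    intro i
    simp [f, g]
  let φ : MvPolynomial t ℚ ≃ₐ[ℚ] MvPolynomial t ℚ := AlgEquiv.ofAlgHom f g hfg hgf
  obtain ⟨σ, hσ⟩ := h47_exists_ringEquiv_of_basis ((↑) : t → ℂ) ht φ.toRingEquiv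
  refine ⟨σ, ?_⟩
  have h := hσ (X i₀)
  have hφ : φ.toRingEquiv (X i₀) = X i₀ + C (1 : ℚ) := by
    simp [φ, f]
  rw [hφ] at h
  simp only [aeval_X, map_add, map_one] at h
  have hi₀ : ((i₀ : t) : ℂ) = c := rfl
  rw [hi₀] at h
  rw [h]
  simp

end Fermat.Agent.S23

namespace Fermat.Agent.S23

open MvPolynomial

theorem h47_isAlgClosure_rat : IsAlgClosure ℚ (algebraicClosure ℚ ℂ) := by
  have h := algebraicClosure.isAlgClosure ℚ ℂ
  have e : (DivisionRing.toRatAlgebra : Algebra ℚ (algebraicClosure ℚ ℂ)) =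
      (algebraicClosure ℚ ℂ).algebra' := Subsingleton.elim _ _
  rw [e]
  exact h

theorem h47_isGalois_rat : IsGalois ℚ (algebraicClosure ℚ ℂ) := by
  have := h47_isAlgClosure_rat
  infer_instance

/-- An algebraic irrational complex number is moved by an automorphism. -/
theorem h47_exists_ringEquiv_ne_of_isAlgebraic (c : ℂ) (hc : IsAlgebraic ℚ c)
    (hirr : ∀ r : ℚ, (r : ℂ) ≠ c) :
    ∃ σ : ℂ ≃+* ℂ, σ c ≠ c := by
  classical
  have hcA : c ∈ algebraicClosure ℚ ℂ := mem_algebraicClosure_iff.mpr hc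
  have hG : IsGalois ℚ (algebraicClosure ℚ ℂ) := h47_isGalois_rat
  -- some automorphism of the algebraic closure of `ℚ` in `ℂ` moves `c`
  have hmove : ∃ τ : (algebraicClosure ℚ ℂ) ≃ₐ[ℚ] (algebraicClosure ℚ ℂ),
      τ ⟨c, hcA⟩ ≠ ⟨c, hcA⟩ := by
    by_contra hcon
    push Not at hcon
    obtain ⟨r, hr⟩ := (InfiniteGalois.mem_range_algebraMap_iff_fixed
      (k := ℚ) (K := algebraicClosure ℚ ℂ) ⟨c, hcA⟩).mpr hcon
    apply hirr r
    have := congrArg (fun x : algebraicClosure ℚ ℂ => (x : ℂ)) hr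
    simpa using this
  obtain ⟨τ, hτ⟩ := hmove
  obtain ⟨s, hs⟩ := exists_isTranscendenceBasis (algebraicClosure ℚ ℂ) ℂ
  obtain ⟨σ, hσ⟩ := h47_exists_ringEquiv_of_basis ((↑) : s → ℂ) hs
    (MvPolynomial.mapEquiv s τ.toRingEquiv)
  refine ⟨σ, ?_⟩
  have h := hσ (C ⟨c, hcA⟩)
  simp only [mapEquiv_apply, map_C, aeval_C] at h
  have h1 : algebraMap (algebraicClosure ℚ ℂ) ℂ ⟨c, hcA⟩ = c := rfl
  rw [h1] at h
  rw [h]
  intro hEq
  apply hτ
  apply Subtype.ext
  exact hEq

/-- **(A)** Every non-rational complex number is moved by a ring automorphism of `ℂ`. -/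
theorem exists_ringEquiv_ne (c : ℂ) (hc : ∀ r : ℚ, (r : ℂ) ≠ c) : ∃ σ : ℂ ≃+* ℂ, σ c ≠ c := by
  by_cases h : IsAlgebraic ℚ c
  · exact h47_exists_ringEquiv_ne_of_isAlgebraic c h hc
  · exact h47_exists_ringEquiv_ne_of_transcendental c h

/-- **(A')** A complex number fixed by every ring endomorphism of `ℂ` is rational. -/
theorem exists_rat_of_forall_ringHom_fixed (c : ℂ) (h : ∀ σ : ℂ →+* ℂ, σ c = c) :
    ∃ r : ℚ, (r : ℂ) = c := by
  by_contra hcon
  push Not at hcon
  obtain ⟨σ, hσ⟩ := exists_ringEquiv_ne c hcon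
  exact hσ (h σ.toRingHom)

end Fermat.Agent.S23
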