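import Mathlib
import Fermat.Agent.S23.Helper47Aut

/-!
# Rational descent for finite-dimensional spaces of "coefficient sequences"
(helper47, S23 task (B))
-/

set_option autoImplicit false

namespace Fermat.Agent.S23

open Module

/-- A family of functionals on a finite-dimensional space which is jointly injective spans
the dual space. -/
theorem h47_span_range_eq_top {K V : Type*} [Field K] [AddCommGroup V] [Module K V]
    [FiniteDimensional K V] {ι : Type*} (a : ι → Module.Dual K V)
    (hinj : ∀ v, (∀ n, a n v = 0) → v = 0) :
    Submodule.span K (Set.range a) = ⊤ := by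
  set Φ : Subspace K (Module.Dual K V) := Submodule.span K (Set.range a) with hΦ
  have hco : Φ.dualCoannihilator = ⊥ := by
    rw [eq_bot_iff]
    intro v hv
    rw [Submodule.mem_dualCoannihilator] at hv
    rw [Submodule.mem_bot]
    exact hinj v fun n => hv (a n) (Submodule.subset_span ⟨n, rfl⟩)
  have h1 := Subspace.finrank_add_finrank_dualCoannihilator_eq Φ
  rw [hco, finrank_bot, add_zero] at h1
  apply Submodule.eq_top_of_finrank_eq
  rw [h1, Subspace.dual_finrank_eq]

/-- **(B)** Abstract Galois descent: a finite-dimensional complex vector space with a jointly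
injective sequence of coordinate functionals, stable under "applying a ring endomorphism of `ℂ`
to all coordinates", is spanned by the vectors all of whose coordinates are rational. -/
theorem span_rational_eq_top {V : Type*} [AddCommGroup V] [Module ℂ V] [FiniteDimensional ℂ V]
    (a : ℕ → V →ₗ[ℂ] ℂ) (hinj : ∀ v, (∀ n, a n v = 0) → v = 0)
    (hσ : ∀ (σ : ℂ →+* ℂ) (v : V), ∃ w : V, ∀ n, a n w = σ (a n v)) :
    Submodule.span ℂ {v : V | ∀ n, ∃ r : ℚ, a n v = (r : ℂ)} = ⊤ := by
  classical
  have hspan : Submodule.span ℂ (Set.range a) = ⊤ := h47_span_range_eq_top a hinj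
  -- a basis of the dual consisting of coordinate functionals
  let B := Basis.ofSpan (K := ℂ) (V := Module.Dual ℂ V) (s := Set.range a) hspan.ge
  have hBmem : ∀ i, ∃ n, a n = B i := fun i => Basis.ofSpan_subset hspan.ge ⟨i, rfl⟩
  have : Finite ((linearIndepOn_empty ℂ id).extend (Set.empty_subset (Set.range a))) :=
    Module.Finite.finite_basis B
  have := Fintype.ofFinite ((linearIndepOn_empty ℂ id).extend (Set.empty_subset (Set.range a)))
  -- the dual basis, transported back to `V`
  let e := B.dualBasis.map (Module.evalEquiv ℂ V).symm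
  have he : ∀ i j, B i (e j) = if i = j then 1 else 0 := by
    intro i j
    have h1 : B i (e j) = B.dualBasis j (B i) := by
      simp only [e, Basis.map_apply]
      exact Module.apply_evalEquiv_symm_apply ℂ V (B i) (B.dualBasis j)
    rw [h1, Basis.dualBasis_apply_self]
  -- functionals in `B` separate points
  have hsep : ∀ u : V, (∀ i, B i u = 0) → u = 0 := by
    intro u hu
    rw [← Module.forall_dual_apply_eq_zero_iff ℂ]
    intro φ
    have hφ : φ ∈ Submodule.span ℂ (Set.range B) := by rw [B.span_eq]; trivial
    induction hφ using Submodule.span_induction with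
    | mem x hx => obtain ⟨i, rfl⟩ := hx; exact hu i
    | zero => rfl
    | add x y _ _ hx hy => rw [LinearMap.add_apply, hx, hy, add_zero]
    | smul c x _ hx => rw [LinearMap.smul_apply, hx, smul_zero]
  -- each `e j` has rational coordinates
  have hrat : ∀ j, e j ∈ {v : V | ∀ n, ∃ r : ℚ, a n v = (r : ℂ)} := by
    intro j n
    have hfix : ∀ σ : ℂ →+* ℂ, σ (a n (e j)) = a n (e j) := by
      intro σ
      obtain ⟨w, hw⟩ := hσ σ (e j)
      have hwe : w = e j := by
        have : w - e j = 0 := by
          apply hsep
          intro i
          obtain ⟨m, hm⟩ := hBmem i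
          rw [map_sub, ← hm, hw m, hm, he i j]
          split_ifs <;> simp
        exact sub_eq_zero.mp this
      rw [← hw n, hwe]
    obtain ⟨r, hr⟩ := exists_rat_of_forall_ringHom_fixed _ hfix
    exact ⟨r, hr.symm⟩
  rw [eq_top_iff, ← e.span_eq]
  apply Submodule.span_mono
  rintro _ ⟨j, rfl⟩
  exact hrat j

end Fermat.Agent.S23
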