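import Mathlib
import Fermat.Prelude.Def_FLTPrelim_Modularity
import Fermat.Prelude.Def_CuspForm_IntegralStructure
import Fermat.Prelude.Thm_ModularForm_sturm_bound_Gamma0
import Fermat.Prelude.Thm_CongruenceSubgroup_one_mem_strictPeriods_Gamma0
import Fermat.Agent.S23.Helper47Descent

/-!
# Rational descent for cusp forms on `Γ₀(N)`  (helper47, S23 task (B'))

Given
* `hσ`: the space of cusp forms is stable under applying a ring endomorphism of `ℂ` to all
  `q`-expansion coefficients, and
* `hden`: cusp forms with rational `q`-expansion have bounded denominators,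

we conclude `CuspForm.HasIntegralStructure N k`.
-/

set_option autoImplicit false

open CuspForm CongruenceSubgroup ModularFormClass UpperHalfPlane

namespace Fermat.Agent.S23

variable {N : ℕ} {k : ℤ}

theorem h47_qCoeff_add (f g : CuspForm (Gamma0 N) k) (n : ℕ) :
    qCoeff (f + g : CuspForm (Gamma0 N) k) n = qCoeff f n + qCoeff g n := by
  unfold qCoeff
  rw [FunLike.coe_add, ModularForm.qExpansion_add one_pos (one_mem_strictPeriods_Gamma0 N) f g,
    map_add]

theorem h47_qCoeff_smul (c : ℂ) (f : CuspForm (Gamma0 N) k) (n : ℕ) :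
    qCoeff (c • f : CuspForm (Gamma0 N) k) n = c * qCoeff f n := by
  unfold qCoeff
  rw [FunLike.coe_smul,
    ModularForm.qExpansion_smul one_pos (one_mem_strictPeriods_Gamma0 N) c f]
  simp

theorem h47_eq_zero_of_forall_qCoeff_eq_zero (f : CuspForm (Gamma0 N) k)
    (h : ∀ n : ℕ, qCoeff f n = 0) : f = 0 := by
  have hΓ := one_mem_strictPeriods_Gamma0 N
  have hq : qExpansion 1 f = 0 := by
    ext n
    simpa [qCoeff] using h n
  have hcusp : IsCusp OnePoint.infty
      ((Gamma0 N : Subgroup (Matrix.SpecialLinearGroup (Fin 2) ℤ)).map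
        (Matrix.SpecialLinearGroup.mapGL ℝ)) :=
    Subgroup.isCusp_of_mem_strictPeriods one_pos hΓ
  have : Fact (IsCusp OnePoint.infty
      ((Gamma0 N : Subgroup (Matrix.SpecialLinearGroup (Fin 2) ℤ)).map
        (Matrix.SpecialLinearGroup.mapGL ℝ))) := ⟨hcusp⟩
  have h0 : (⇑f : ℍ → ℂ) = 0 :=
    (UpperHalfPlane.qExpansion_eq_zero_iff one_pos
      (SlashInvariantFormClass.periodic_comp_ofComplex f hΓ) (CuspFormClass.holo f)
      (ModularFormClass.bdd_at_infty f)).mp hq
  exact DFunLike.coe_injective h0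

/-- The `n`-th `q`-expansion coefficient as a linear functional on cusp forms. -/
noncomputable def h47_qCoeffLin (N : ℕ) (k : ℤ) (n : ℕ) : CuspForm (Gamma0 N) k →ₗ[ℂ] ℂ where
  toFun f := qCoeff f n
  map_add' f g := h47_qCoeff_add f g n
  map_smul' c f := by simpa using h47_qCoeff_smul c f n

@[simp] theorem h47_qCoeffLin_apply (n : ℕ) (f : CuspForm (Gamma0 N) k) :
    h47_qCoeffLin N k n f = qCoeff f n := rfl

/-- Sturm bound for cusp forms on `Γ₀(N)`. -/
theorem h47_eq_zero_of_sturm [NeZero N] (f : CuspForm (Gamma0 N) k)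
    (h : ∀ n : ℕ, n ≤ (k * (Gamma0 N).index).toNat / 12 → qCoeff f n = 0) : f = 0 := by
  have hF : (f : ModularForm (Gamma0 N) k) = 0 := by
    apply ModularForm.sturm_bound_Gamma0 N
    intro n hn
    exact h n hn
  ext z
  have := congrArg (fun g : ModularForm (Gamma0 N) k => g z) hF
  simpa using this

/-- Cusp forms on `Γ₀(N)` form a finite-dimensional space (via the prelude Sturm bound). -/
theorem h47_finiteDimensional (N : ℕ) [NeZero N] (k : ℤ) :
    FiniteDimensional ℂ (CuspForm (Gamma0 N) k) := by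
  let B : ℕ := (k * (Gamma0 N).index).toNat / 12
  let L : CuspForm (Gamma0 N) k →ₗ[ℂ] (Fin (B + 1) → ℂ) :=
    LinearMap.pi fun i => h47_qCoeffLin N k i
  have hL : Function.Injective L := by
    rw [← LinearMap.ker_eq_bot, LinearMap.ker_eq_bot']
    intro f hf
    apply h47_eq_zero_of_sturm
    intro n hn
    have := congrFun hf ⟨n, Nat.lt_succ_of_le hn⟩
    simpa [L] using this
  exact Module.Finite.of_injective L hL

/-- **(B')** If the space of cusp forms is stable under ring endomorphisms of `ℂ` acting on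
`q`-expansion coefficients, then it is spanned by forms with rational `q`-expansion. -/
theorem cuspForm_span_rational_eq_top (N : ℕ) [NeZero N] (k : ℤ)
    (hσ : ∀ (σ : ℂ →+* ℂ) (f : CuspForm (Gamma0 N) k),
      ∃ g : CuspForm (Gamma0 N) k, ∀ n, qCoeff g n = σ (qCoeff f n)) :
    Submodule.span ℂ {f : CuspForm (Gamma0 N) k | ∀ n, ∃ r : ℚ, qCoeff f n = (r : ℂ)} = ⊤ := by
  have := h47_finiteDimensional N k
  exact span_rational_eq_top (h47_qCoeffLin N k)
    (fun f hf => h47_eq_zero_of_forall_qCoeff_eq_zero f hf) hσ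

/-- **Final glue**: `σ`-stability plus bounded denominators give the integral structure. -/
theorem hasIntegralStructure_of (N : ℕ) [NeZero N] (k : ℤ)
    (hσ : ∀ (σ : ℂ →+* ℂ) (f : CuspForm (Gamma0 N) k),
      ∃ g : CuspForm (Gamma0 N) k, ∀ n, qCoeff g n = σ (qCoeff f n))
    (hden : ∀ f : CuspForm (Gamma0 N) k, (∀ n, ∃ r : ℚ, qCoeff f n = (r : ℂ)) →
      ∃ D : ℤ, D ≠ 0 ∧ ∀ n, ∃ m : ℤ, (D : ℂ) * qCoeff f n = (m : ℂ)) :
    CuspForm.HasIntegralStructure N k := by
  unfold CuspForm.HasIntegralStructure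
  rw [eq_top_iff, ← cuspForm_span_rational_eq_top N k hσ]
  apply Submodule.span_le.mpr
  intro f hf
  obtain ⟨D, hD0, hD⟩ := hden f hf
  have hDf : ((D : ℂ) • f) ∈ CuspForm.intLattice N k := by
    apply Submodule.subset_span
    intro n
    obtain ⟨m, hm⟩ := hD n
    exact ⟨m, by rw [h47_qCoeff_smul, hm]⟩
  have hDC : (D : ℂ) ≠ 0 := by exact_mod_cast hD0
  have hf' : f = (D : ℂ)⁻¹ • ((D : ℂ) • f) := by
    rw [smul_smul, inv_mul_cancel₀ hDC, one_smul]
  rw [hf']
  exact Submodule.smul_mem _ _ (Submodule.subset_span hDf)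

end Fermat.Agent.S23
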