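/-
S23 / P3 (core, Mathlib only): Lagrange/Cramer interpolation of a modular form of level `𝒢`
by powers of a fixed form `t` whose `SL(2,ℤ)`-translates are pairwise distinct, with
level one coefficients.
-/
import Mathlib

set_option autoImplicit false

open UpperHalfPlane ModularForm SlashInvariantForm Filter
open scoped MatrixGroups ModularForm Manifold Topology

namespace Fermat.Agent.S23

noncomputable section

/-- `g` is the underlying function of a level one modular form of weight `w`. -/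
def CramerLO (w : ℤ) (g : ℍ → ℂ) : Prop := ∃ F : ModularForm 𝒮ℒ w, ⇑F = g

lemma cramer_lo_cast {w w' : ℤ} (h : w = w') {g : ℍ → ℂ} (hg : CramerLO w g) : CramerLO w' g := by
  subst h; exact hg

lemma cramer_lo_zero (w : ℤ) : CramerLO w (fun _ => 0) := ⟨0, rfl⟩

lemma cramer_lo_const (c : ℂ) : CramerLO 0 (fun _ => c) := ⟨ModularForm.const c, rfl⟩

lemma cramer_lo_add {w : ℤ} {g g' : ℍ → ℂ} (hg : CramerLO w g) (hg' : CramerLO w g') :
    CramerLO w (fun z => g z + g' z) := by
  obtain ⟨F, rfl⟩ := hg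
  obtain ⟨F', rfl⟩ := hg'
  exact ⟨F + F', rfl⟩

lemma cramer_lo_mul {w w' : ℤ} {g g' : ℍ → ℂ} (hg : CramerLO w g) (hg' : CramerLO w' g') :
    CramerLO (w + w') (fun z => g z * g' z) := by
  obtain ⟨F, rfl⟩ := hg
  obtain ⟨F', rfl⟩ := hg'
  exact ⟨F.mul F', rfl⟩

lemma cramer_lo_sum {ι : Type*} (s : Finset ι) {w : ℤ} (g : ι → ℍ → ℂ)
    (h : ∀ i ∈ s, CramerLO w (g i)) : CramerLO w (fun z => ∑ i ∈ s, g i z) := by
  classical
  induction s using Finset.induction_on with
  | empty => simpa using cramer_lo_zero w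
  | insert a s ha ih =>
    have h1 := cramer_lo_add (h a (Finset.mem_insert_self a s))
      (ih fun i hi => h i (Finset.mem_insert_of_mem hi))
    have e : (fun z => ∑ i ∈ insert a s, g i z) = fun z => g a z + ∑ i ∈ s, g i z :=
      funext fun z => Finset.sum_insert ha
    rw [e]; exact h1

lemma cramer_lo_prod {ι : Type*} (s : Finset ι) (κ : ι → ℤ) (g : ι → ℍ → ℂ)
    (h : ∀ i ∈ s, CramerLO (κ i) (g i)) :
    CramerLO (∑ i ∈ s, κ i) (fun z => ∏ i ∈ s, g i z) := by
  classical
  induction s using Finset.induction_on with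
  | empty => simpa using cramer_lo_const 1
  | insert a s ha ih =>
    have h1 := cramer_lo_mul (h a (Finset.mem_insert_self a s))
      (ih fun i hi => h i (Finset.mem_insert_of_mem hi))
    have e : (fun z => ∏ i ∈ insert a s, g i z) = fun z => g a z * ∏ i ∈ s, g i z :=
      funext fun z => Finset.prod_insert ha
    rw [Finset.sum_insert ha, e]; exact h1

/-- The determinant of a matrix of level one forms whose weights are of the form
`dr a + dc b` is a level one form of weight `∑ dr + ∑ dc`. -/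
lemma cramer_lo_det {n : Type*} [Fintype n] [DecidableEq n] (dr dc : n → ℤ)
    (M : n → n → ℍ → ℂ) (hM : ∀ a b, CramerLO (dr a + dc b) (M a b)) :
    CramerLO (∑ a, dr a + ∑ b, dc b)
      (fun z => Matrix.det (Matrix.of fun a b => M a b z)) := by
  have key : ∀ σ : Equiv.Perm n, CramerLO (∑ a, dr a + ∑ b, dc b)
      (fun z => ((Equiv.Perm.sign σ : ℤ) : ℂ) * ∏ i, M (σ i) i z) := by
    intro σ
    have h1 := cramer_lo_prod Finset.univ (fun i => dr (σ i) + dc i) (fun i => M (σ i) i)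
      (fun i _ => hM (σ i) i)
    have h2 := cramer_lo_mul (cramer_lo_const ((Equiv.Perm.sign σ : ℤ) : ℂ)) h1
    refine cramer_lo_cast ?_ h2
    rw [zero_add, Finset.sum_add_distrib, Equiv.sum_comp σ dr]
  have h3 := cramer_lo_sum Finset.univ _ (fun σ _ => key σ)
  have e : (fun z => Matrix.det (Matrix.of fun a b => M a b z)) =
      fun z => ∑ σ : Equiv.Perm n, ((Equiv.Perm.sign σ : ℤ) : ℂ) * ∏ i, M (σ i) i z :=
    funext fun z => by rw [Matrix.det_apply']; rfl
  rw [e]; exact h3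

section LinearAlgebra

/-- Gram matrix of power sums and the moment vector, pure linear algebra. -/
lemma cramer_la_identity {R : Type*} [CommRing R] {n : ℕ} (v F : Fin n → R) (i0 : Fin n) :
    (Matrix.of fun a b : Fin n => ∑ i, v i ^ ((a : ℕ) + (b : ℕ))).det * F i0 =
      ∑ j : Fin n, Matrix.cramer (Matrix.of fun a b : Fin n => ∑ i, v i ^ ((a : ℕ) + (b : ℕ)))
        (fun a => ∑ i, F i * v i ^ (a : ℕ)) j * v i0 ^ (j : ℕ) := by
  set A : Matrix (Fin n) (Fin n) R := Matrix.vandermonde v with hA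
  have hS : (Matrix.of fun a b : Fin n => ∑ i, v i ^ ((a : ℕ) + (b : ℕ))) = A.transpose * A := by
    ext a b
    simp [Matrix.mul_apply, hA, Matrix.vandermonde_apply, pow_add]
  have hT : (fun a : Fin n => ∑ i, F i * v i ^ (a : ℕ)) = A.transpose.mulVec F := by
    ext a
    simp [Matrix.mulVec, dotProduct, hA, Matrix.vandermonde_apply, mul_comm]
  rw [hS, hT, Matrix.cramer_eq_adjugate_mulVec]
  have h1 : A.mulVec ((A.transpose * A).adjugate.mulVec (A.transpose.mulVec F)) =
      (A.transpose * A).det • F := by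
    rw [Matrix.mulVec_mulVec, Matrix.mulVec_mulVec, Matrix.adjugate_mul_distrib,
      ← Matrix.mul_assoc, Matrix.mul_adjugate, Matrix.mul_assoc,
      Matrix.adjugate_mul, Matrix.det_mul, Matrix.det_transpose]
    simp [Matrix.smul_mulVec, smul_smul]
  have h2 := congrFun h1 i0
  simp only [Matrix.mulVec, dotProduct, Pi.smul_apply, smul_eq_mul] at h2
  rw [← h2]
  refine Finset.sum_congr rfl fun j _ => ?_
  simp [hA, Matrix.vandermonde_apply, mul_comm, Matrix.mulVec, dotProduct]

lemma cramer_la_det {R : Type*} [CommRing R] {n : ℕ} (v : Fin n → R) :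
    (Matrix.of fun a b : Fin n => ∑ i, v i ^ ((a : ℕ) + (b : ℕ))).det =
      (∏ i : Fin n, ∏ j ∈ Finset.Ioi i, (v j - v i)) ^ 2 := by
  have hS : (Matrix.of fun a b : Fin n => ∑ i, v i ^ ((a : ℕ) + (b : ℕ))) =
      (Matrix.vandermonde v).transpose * Matrix.vandermonde v := by
    ext a b
    simp [Matrix.mul_apply, Matrix.vandermonde_apply, pow_add]
  rw [hS, Matrix.det_mul, Matrix.det_transpose, Matrix.det_vandermonde, sq]


end LinearAlgebra

section Modular

variable {𝒢 : Subgroup (GL (Fin 2) ℝ)} {k k' kt : ℤ}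

local notation "𝒬" => 𝒮ℒ ⧸ (𝒢.subgroupOf 𝒮ℒ)

lemma cramer_quotientFunc_mdiff (f : ModularForm 𝒢 k) (q : 𝒬) :
    MDiff (quotientFunc f q) := by
  induction q using Quotient.inductionOn with
  | h r => exact (ModularForm.translate f r.val⁻¹).holo'

lemma cramer_quotientFunc_one (f : ModularForm 𝒢 k) :
    quotientFunc f (⟦(1 : 𝒮ℒ)⟧ : 𝒬) = ⇑f := by
  rw [quotientFunc_mk]
  simp

variable [𝒢.IsArithmetic]

lemma cramer_quotientFunc_mul (f : ModularForm 𝒢 k) (g : ModularForm 𝒢 k') (q : 𝒬) :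
    quotientFunc (f.mul g) q = quotientFunc f q * quotientFunc g q := by
  induction q using Quotient.inductionOn with
  | h r =>
    have hdet : |(r.val⁻¹).det.val| = 1 := Subgroup.HasDetPlusMinusOne.abs_det (inv_mem r.2)
    rw [quotientFunc_mk, quotientFunc_mk, quotientFunc_mk, ModularForm.coe_mul,
      ModularForm.mul_slash, hdet, one_smul]

lemma cramer_quotientFunc_pow (t : ModularForm 𝒢 kt) (m : ℕ) (q : 𝒬) :
    quotientFunc (t.pow m) q = quotientFunc t q ^ m := by
  induction q using Quotient.inductionOn with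
  | h r =>
    have hdet : |(r.val⁻¹).det.val| = 1 := Subgroup.HasDetPlusMinusOne.abs_det (inv_mem r.2)
    rw [quotientFunc_mk, quotientFunc_mk, ModularForm.coe_pow]
    have h1 := ModularForm.prod_slash (k := kt) (g := r.val⁻¹)
      (f := fun _ : ℕ => (⇑t : ℍ → ℂ)) (s := Finset.range m)
    rw [Finset.prod_const, Finset.prod_const, Finset.card_range, hdet, one_zpow, one_smul] at h1
    rw [mul_comm]
    exact h1

lemma cramer_lo_powerSum (t : ModularForm 𝒢 kt) {n : ℕ} (e : Fin n ≃ 𝒬) (m : ℕ) :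
    CramerLO (m * kt) (fun z => ∑ i : Fin n, quotientFunc t (e i) z ^ m) := by
  refine ⟨ModularForm.trace 𝒮ℒ (t.pow m), ?_⟩
  let := Fintype.ofFinite 𝒬
  funext z
  rw [ModularForm.coe_trace]
  simp only [Finset.sum_apply, cramer_quotientFunc_pow, Pi.pow_apply]
  exact (Equiv.sum_comp e (fun q => quotientFunc t q z ^ m)).symm

lemma cramer_lo_moment (f : ModularForm 𝒢 k) (t : ModularForm 𝒢 kt) {n : ℕ} (e : Fin n ≃ 𝒬)
    (m : ℕ) :
    CramerLO (k + m * kt)
      (fun z => ∑ i : Fin n, quotientFunc f (e i) z * quotientFunc t (e i) z ^ m) := by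
  refine ⟨ModularForm.trace 𝒮ℒ (f.mul (t.pow m)), ?_⟩
  let := Fintype.ofFinite 𝒬
  funext z
  rw [ModularForm.coe_trace]
  simp only [Finset.sum_apply, cramer_quotientFunc_mul, cramer_quotientFunc_pow, Pi.pow_apply,
    Pi.mul_apply]
  exact (Equiv.sum_comp e
    (fun q => quotientFunc f q z * quotientFunc t q z ^ m)).symm

/-- Core of P3: if the `SL(2,ℤ)`-translates of `t` are pairwise distinct, every form `f` of the
same level is, up to a nonzero level one factor `r`, a polynomial in `t` with level one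
coefficients. -/
theorem exists_cramer_core (f : ModularForm 𝒢 k) (t : ModularForm 𝒢 kt)
    (ht : Function.Injective (fun q : 𝒬 => quotientFunc t q)) :
    ∃ (μ : ℕ) (w : ℤ) (r : ModularForm 𝒮ℒ w)
      (rj : (j : ℕ) → ModularForm 𝒮ℒ (w + k - kt * j)),
      r ≠ 0 ∧ ∀ z, r z * f z = ∑ j ∈ Finset.range μ, rj j z * t z ^ j := by
  classical
  set μ : ℕ := Nat.card 𝒬 with hμ
  let e : Fin μ ≃ 𝒬 := (Finite.equivFin 𝒬).symm
  let τ : Fin μ → ℍ → ℂ := fun i => quotientFunc t (e i)
  let φ : Fin μ → ℍ → ℂ := fun i => quotientFunc f (e i)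
  let dr : Fin μ → ℤ := fun a => ((a : ℕ) : ℤ) * kt
  set w : ℤ := ∑ a, dr a + ∑ b, dr b with hw
  have hS : ∀ a b : Fin μ,
      CramerLO (dr a + dr b) (fun z => ∑ i, τ i z ^ ((a : ℕ) + (b : ℕ))) := fun a b =>
    cramer_lo_cast (by simp only [dr]; push_cast; ring) (cramer_lo_powerSum t e ((a : ℕ) + (b : ℕ)))
  have hT : ∀ a : Fin μ, CramerLO (dr a + k) (fun z => ∑ i, φ i z * τ i z ^ (a : ℕ)) := fun a =>
    cramer_lo_cast (add_comm _ _) (cramer_lo_moment f t e (a : ℕ))
  obtain ⟨r, hr⟩ := cramer_lo_det dr dr (fun a b z => ∑ i, τ i z ^ ((a : ℕ) + (b : ℕ))) hS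
  have hrj : ∀ j : Fin μ, CramerLO (w + k - kt * ((j : ℕ) : ℤ))
      (fun z => Matrix.cramer (Matrix.of fun a b : Fin μ => ∑ i, τ i z ^ ((a : ℕ) + (b : ℕ)))
        (fun a => ∑ i, φ i z * τ i z ^ (a : ℕ)) j) := by
    intro j
    have h1 := cramer_lo_det dr (Function.update dr j k)
      (fun a b z => if b = j then ∑ i, φ i z * τ i z ^ (a : ℕ)
        else ∑ i, τ i z ^ ((a : ℕ) + (b : ℕ))) (by
        intro a b
        by_cases hb : b = j
        · subst hb
          simpa using hT a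
        · simpa [hb, Function.update_of_ne hb] using hS a b)
    have h2 : (∑ a, dr a + ∑ b, Function.update dr j k b) = w + k - kt * ((j : ℕ) : ℤ) := by
      rw [Finset.sum_update_of_mem (Finset.mem_univ j), Finset.sdiff_singleton_eq_erase,
        Finset.sum_erase_eq_sub (Finset.mem_univ j), hw]
      simp only [dr]
      ring
    refine cramer_lo_cast h2 ?_
    have h3 : (fun z => Matrix.cramer
        (Matrix.of fun a b : Fin μ => ∑ i, τ i z ^ ((a : ℕ) + (b : ℕ)))
        (fun a => ∑ i, φ i z * τ i z ^ (a : ℕ)) j) =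
        fun z => Matrix.det (Matrix.of fun a b : Fin μ =>
          if b = j then ∑ i, φ i z * τ i z ^ (a : ℕ) else ∑ i, τ i z ^ ((a : ℕ) + (b : ℕ))) := by
      funext z
      rw [Matrix.cramer_apply]
      congr 1
      ext a b
      simp [Matrix.updateCol_apply]
    rw [h3]
    exact h1
  have hrj' : ∀ j : Fin μ, ∃ F : ModularForm 𝒮ℒ (w + k - kt * ((j : ℕ) : ℤ)),
      ⇑F = fun z => Matrix.cramer
        (Matrix.of fun a b : Fin μ => ∑ i, τ i z ^ ((a : ℕ) + (b : ℕ)))
        (fun a => ∑ i, φ i z * τ i z ^ (a : ℕ)) j := hrj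
  choose R hR using hrj'
  refine ⟨μ, w, r, fun j => if h : j < μ then R ⟨j, h⟩ else 0, ?_, ?_⟩
  · intro hr0
    have h0 : ∀ z, (∏ i : Fin μ, ∏ j ∈ Finset.Ioi i, (τ j z - τ i z)) ^ 2 = 0 := by
      intro z
      rw [← cramer_la_det]
      have := congrFun hr z
      rw [hr0] at this
      exact this.symm
    have h1 : (∏ i : Fin μ, ∏ j ∈ Finset.Ioi i, (τ j - τ i)) = 0 := by
      funext z
      have := pow_eq_zero_iff (two_ne_zero) |>.mp (h0 z)
      simpa [Finset.prod_apply] using this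
    have hd : ∀ i j : Fin μ, MDiff (τ j - τ i) := fun i j =>
      (cramer_quotientFunc_mdiff t (e j)).sub (cramer_quotientFunc_mdiff t (e i))
    rw [UpperHalfPlane.prod_eq_zero_iff
      (fun i _ => MDifferentiable.prod (fun j _ => hd i j))] at h1
    obtain ⟨i, -, hi⟩ := h1
    rw [UpperHalfPlane.prod_eq_zero_iff (fun j _ => hd i j)] at hi
    obtain ⟨j, hj, hij⟩ := hi
    have h2 : e j = e i := ht (sub_eq_zero.mp hij)
    exact absurd (e.injective h2) (Finset.mem_Ioi.mp hj).ne'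
  · intro z
    have hi0 : e (e.symm (⟦(1 : 𝒮ℒ)⟧ : 𝒬)) = (⟦(1 : 𝒮ℒ)⟧ : 𝒬) := e.apply_symm_apply _
    have hτ0 : τ (e.symm (⟦(1 : 𝒮ℒ)⟧ : 𝒬)) z = t z := by
      simp only [τ]; rw [hi0, cramer_quotientFunc_one]
    have hφ0 : φ (e.symm (⟦(1 : 𝒮ℒ)⟧ : 𝒬)) z = f z := by
      simp only [φ]; rw [hi0, cramer_quotientFunc_one]
    have key := cramer_la_identity (fun i => τ i z) (fun i => φ i z) (e.symm (⟦(1 : 𝒮ℒ)⟧ : 𝒬))
    rw [hτ0, hφ0] at key
    have hrz : r z = Matrix.det (Matrix.of fun a b : Fin μ => ∑ i, τ i z ^ ((a : ℕ) + (b : ℕ))) :=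
      congrFun hr z
    rw [hrz, key, Finset.sum_range]
    refine Finset.sum_congr rfl fun j _ => ?_
    beta_reduce
    rw [dif_pos j.2]
    have := congrFun (hR ⟨j, j.2⟩) z
    rw [this]

end Modular

end

end Fermat.Agent.S23
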