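import Mathlib
import Fermat.Prelude.Def_ModularForm_HeckeOperator
import Fermat.Prelude.Thm_CongruenceSubgroup_one_mem_strictPeriods_Gamma0

set_option autoImplicit false

open UpperHalfPlane ModularForm CongruenceSubgroup
open scoped MatrixGroups ModularForm Manifold Pointwise

noncomputable section

namespace Fermat.Agent.S23

/-- An element of `SL(2, ℤ)` with prescribed entries. -/
theorem exists_SL2_of_entries (a b c d : ℤ) (h : a * d - b * c = 1) :
    ∃ g : SL(2, ℤ), g 0 0 = a ∧ g 0 1 = b ∧ g 1 0 = c ∧ g 1 1 = d :=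
  ⟨⟨!![a, b; c, d], by rw [Matrix.det_fin_two_of]; exact h⟩, rfl, rfl, rfl, rfl⟩

/-- `Γ₀(N)` is contained in the conjugate of `SL(2, ℤ)` by `diag(N, 1)`. -/
theorem Gamma0_le_conj (N : ℕ) [NeZero N] :
    (Gamma0 N : Subgroup (GL (Fin 2) ℝ)) ≤
      ConjAct.toConjAct (heckeDiagMatrix N)⁻¹ • (𝒮ℒ : Subgroup (GL (Fin 2) ℝ)) := by
  have hN : N ≠ 0 := NeZero.ne N
  rintro _ ⟨γ, hγ, rfl⟩
  rw [Subgroup.mem_pointwise_smul_iff_inv_smul_mem, ← ConjAct.toConjAct_inv, inv_inv,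
    ConjAct.toConjAct_smul]
  rw [SetLike.mem_coe, Gamma0_mem, ZMod.intCast_zmod_eq_zero_iff_dvd] at hγ
  obtain ⟨c', hc'⟩ := hγ
  have hdet : γ 0 0 * γ 1 1 - (N : ℤ) * γ 0 1 * c' = 1 := by
    have h1 := γ.det_coe
    rw [Matrix.det_fin_two] at h1
    rw [hc'] at h1
    linear_combination h1
  obtain ⟨γ', h00, h01, h10, h11⟩ := exists_SL2_of_entries _ _ _ _ hdet
  refine ⟨γ', ?_⟩
  rw [eq_mul_inv_iff_mul_eq]
  apply Matrix.GeneralLinearGroup.ext
  intro i j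
  simp only [Matrix.GeneralLinearGroup.coe_mul, Matrix.SpecialLinearGroup.mapGL_coe_matrix,
    val_heckeDiagMatrix hN, Matrix.mul_apply, Fin.sum_univ_two,
    Matrix.SpecialLinearGroup.map_apply_coe, RingHom.mapMatrix_apply, Matrix.map_apply]
  fin_cases i <;> fin_cases j <;> simp [hc', h00, h01, h10, h11] <;> ring

/-- The slash translate `E₄ ∣[4] diag(N, 1)`, as a modular form of level `Γ₀(N)`. -/
def tFormAux (N : ℕ) [NeZero N] : ModularForm (Gamma0 N) 4 where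
  toFun := ⇑E₄ ∣[(4 : ℤ)] heckeDiagMatrix N
  slash_action_eq' γ hγ :=
    (ModularForm.translate E₄ (heckeDiagMatrix N)).slash_action_eq' γ (Gamma0_le_conj N hγ)
  holo' := (ModularForm.translate E₄ (heckeDiagMatrix N)).holo'
  bdd_at_cusps' hc :=
    (ModularForm.translate E₄ (heckeDiagMatrix N)).bdd_at_cusps' (hc.mono (Gamma0_le_conj N))

/-- The form `t(z) = E₄(N z)` of weight `4` and level `Γ₀(N)`. -/
def tForm (N : ℕ) [NeZero N] : ModularForm (Gamma0 N) 4 :=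
  (((N : ℂ) ^ 3)⁻¹ : ℂ) • tFormAux N

theorem tForm_apply (N : ℕ) [NeZero N] (z : ℍ) :
    tForm N z = E₄ (heckeDiagMatrix N • z) := by
  have hN : N ≠ 0 := NeZero.ne N
  have hN' : (N : ℂ) ≠ 0 := by exact_mod_cast hN
  show ((N : ℂ) ^ 3)⁻¹ • (⇑E₄ ∣[(4 : ℤ)] heckeDiagMatrix N) z = _
  rw [slash_heckeDiagMatrix_apply 4 hN, smul_eq_mul, ← mul_assoc]
  have : ((N : ℂ) ^ 3)⁻¹ * (N : ℂ) ^ ((4 : ℤ) - 1) = 1 := by
    rw [show ((4 : ℤ) - 1) = ((3 : ℕ) : ℤ) by norm_num, zpow_natCast]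
    exact inv_mul_cancel₀ (pow_ne_zero 3 hN')
  rw [this, one_mul]

theorem qParam_heckeDiagMatrix_smul (N : ℕ) [NeZero N] (z : ℍ) :
    Function.Periodic.qParam 1 ((heckeDiagMatrix N • z : ℍ) : ℂ) =
      Function.Periodic.qParam 1 (z : ℂ) ^ N := by
  rw [coe_heckeDiagMatrix_smul (NeZero.ne N), Function.Periodic.qParam,
    Function.Periodic.qParam, ← Complex.exp_nat_mul]
  congr 1
  push_cast
  ring

/-- The `q`-expansion coefficients of `t(z) = E₄(N z)`, as a function. -/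
def tCoeff (N : ℕ) (n : ℕ) : ℂ :=
  if N ∣ n then (qExpansion 1 E₄).coeff (n / N) else 0

theorem tForm_hasSum (N : ℕ) [NeZero N] (τ : ℍ) :
    HasSum (fun n : ℕ => tCoeff N n • Function.Periodic.qParam 1 (τ : ℂ) ^ n) (tForm N τ) := by
  have hN : N ≠ 0 := NeZero.ne N
  have h := ModularForm.hasSum_qExpansion E₄ one_pos one_mem_strictPeriods_SL
    (heckeDiagMatrix N • τ)
  rw [qParam_heckeDiagMatrix_smul, ← tForm_apply] at h
  have hinj : Function.Injective (fun m : ℕ => N * m) :=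
    fun a b hab => Nat.eq_of_mul_eq_mul_left (Nat.pos_of_ne_zero hN) hab
  rw [← hinj.hasSum_iff]
  · convert h using 1
    funext m
    simp only [Function.comp_apply, tCoeff, dvd_mul_right, if_true, smul_eq_mul,
      Nat.mul_div_cancel_left m (Nat.pos_of_ne_zero hN), pow_mul]
  · intro n hn
    have hnd : ¬ N ∣ n := fun ⟨m, hm⟩ => hn ⟨m, hm.symm⟩
    simp [tCoeff, hnd]

theorem tForm_qExpansion_coeff (N : ℕ) [NeZero N] (n : ℕ) :
    (qExpansion 1 (tForm N)).coeff n =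
      if N ∣ n then (qExpansion 1 E₄).coeff (n / N) else 0 :=
  (ModularFormClass.qExpansion_coeff_unique one_pos
    (CongruenceSubgroup.one_mem_strictPeriods_Gamma0 N) (tForm_hasSum N) n).symm

theorem E₄_qExpansion_coeff_int (m : ℕ) : ∃ a : ℤ, (qExpansion 1 E₄).coeff m = (a : ℂ) := by
  rw [EisensteinSeries.E_qExpansion_coeff (by norm_num : 3 ≤ 4) ⟨2, rfl⟩ m]
  split_ifs with h
  · exact ⟨1, by simp⟩
  · refine ⟨240 * (ArithmeticFunction.sigma 3 m : ℤ), ?_⟩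
    rw [show bernoulli 4 = -1 / 30 by decide +kernel]
    push_cast
    ring

theorem E₆_qExpansion_coeff_int (m : ℕ) : ∃ a : ℤ, (qExpansion 1 E₆).coeff m = (a : ℂ) := by
  rw [EisensteinSeries.E_qExpansion_coeff (by norm_num : 3 ≤ 6) ⟨3, rfl⟩ m]
  split_ifs with h
  · exact ⟨1, by simp⟩
  · refine ⟨-504 * (ArithmeticFunction.sigma 5 m : ℤ), ?_⟩
    rw [show bernoulli 6 = 1 / 42 by decide +kernel]
    push_cast
    ring

theorem tForm_qExpansion_int (N : ℕ) [NeZero N] (n : ℕ) :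
    ∃ m : ℤ, (qExpansion 1 (tForm N)).coeff n = (m : ℂ) := by
  rw [tForm_qExpansion_coeff]
  split_ifs with h
  · exact E₄_qExpansion_coeff_int _
  · exact ⟨0, by simp⟩

/-! ### The stabiliser of `t` in `SL(2, ℤ)` is `Γ₀(N)` -/

theorem det_upperTriangularGL (a b d : ℝ) (had : a * d ≠ 0) :
    ((upperTriangularGL a b d had).det : ℝ) = a * d := by
  rw [Matrix.GeneralLinearGroup.val_det_apply, val_upperTriangularGL, Matrix.det_fin_two_of]
  ring

theorem σ_upperTriangularGL {a d : ℝ} (b : ℝ) (had : 0 < a * d) :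
    UpperHalfPlane.σ (upperTriangularGL a b d had.ne') = .refl ℝ ℂ := by
  rw [UpperHalfPlane.σ, if_pos (by rw [det_upperTriangularGL]; exact had)]

theorem denom_upperTriangularGL (a b d : ℝ) (had : a * d ≠ 0) (τ : ℍ) :
    UpperHalfPlane.denom (upperTriangularGL a b d had) τ = d := by
  simp [UpperHalfPlane.denom, val_upperTriangularGL]

theorem slash_upperTriangularGL_apply (k : ℤ) {a d : ℝ} (b : ℝ) (had : 0 < a * d)
    (f : ℍ → ℂ) (τ : ℍ) :
    (f ∣[k] upperTriangularGL a b d had.ne') τ =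
      f (upperTriangularGL a b d had.ne' • τ) * ((a * d : ℝ) : ℂ) ^ (k - 1) * (d : ℂ) ^ (-k) := by
  rw [ModularForm.slash_apply, σ_upperTriangularGL b had, det_upperTriangularGL,
    denom_upperTriangularGL, abs_of_pos had]
  rfl

theorem tendsto_E₄_atImInfty : Filter.Tendsto (⇑E₄) atImInfty (nhds 1) := by
  have hper := SlashInvariantFormClass.periodic_comp_ofComplex E₄ one_mem_strictPeriods_SL
  have han := ModularFormClass.analyticAt_cuspFunction_zero E₄ one_pos one_mem_strictPeriods_SL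
  have h1 : (cuspFunction 1 ⇑E₄ ∘ fun τ : ℍ => Function.Periodic.qParam 1 (τ : ℂ)) = ⇑E₄ := by
    funext τ
    exact eq_cuspFunction τ one_ne_zero hper
  have h0 : cuspFunction 1 ⇑E₄ 0 = 1 := by
    have := EisensteinSeries.E_qExpansion_coeff_zero (by norm_num : 3 ≤ 4) ⟨2, rfl⟩
    rw [qExpansion_coeff] at this
    simpa using this
  have := han.continuousAt.tendsto.comp (qParam_tendsto_atImInfty one_pos)
  rw [h1, h0] at this
  exact this

/-- Hermite normal form of `diag(N, 1) * γ` for `γ ∈ SL(2, ℤ)`: it equals `γ' * [A, B; 0, D]`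
with `γ' ∈ SL(2, ℤ)`, `A, D > 0`, `A * D = N`, and `D = 1` only if `γ ∈ Γ₀(N)`. -/
theorem exists_hermite (N : ℕ) [NeZero N] (γ : SL(2, ℤ)) :
    ∃ (γ' : SL(2, ℤ)) (A D : ℕ) (B : ℤ) (hAD : (0 : ℝ) < (A : ℝ) * (D : ℝ)),
      0 < D ∧ A * D = N ∧ (D = 1 → γ ∈ Gamma0 N) ∧
      heckeDiagMatrix N * (γ : GL (Fin 2) ℝ) =
        (γ' : GL (Fin 2) ℝ) * upperTriangularGL (A : ℝ) (B : ℝ) (D : ℝ) hAD.ne' := by
  have hN : N ≠ 0 := NeZero.ne N
  have hNpos : (0 : ℤ) < (N : ℤ) := by exact_mod_cast Nat.pos_of_ne_zero hN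
  have hdet : γ 0 0 * γ 1 1 - γ 0 1 * γ 1 0 = 1 := by
    have h1 := γ.det_coe
    rwa [Matrix.det_fin_two] at h1
  set a := γ 0 0 with ha
  set b := γ 0 1 with hb
  set c := γ 1 0 with hc
  set d := γ 1 1 with hd
  set G : ℕ := Int.gcd ((N : ℤ) * a) c with hG
  have hGpos : 0 < G := by
    rw [hG, Int.gcd_pos_iff]
    by_contra hcon
    rw [not_or, not_not, not_not] at hcon
    obtain ⟨h1, h2⟩ := hcon
    have ha0 : a = 0 := by
      rcases mul_eq_zero.mp h1 with h | h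
      · exact absurd h hNpos.ne'
      · exact h
    rw [ha0, h2] at hdet
    simp at hdet
  have hGa : (G : ℤ) ∣ (N : ℤ) * a := Int.gcd_dvd_left _ _
  have hGc : (G : ℤ) ∣ c := Int.gcd_dvd_right _ _
  obtain ⟨a', ha'⟩ := hGa
  obtain ⟨c', hc'⟩ := hGc
  have hGne : (G : ℤ) ≠ 0 := by exact_mod_cast hGpos.ne'
  have hcop : IsCoprime a' c' := by
    rw [Int.isCoprime_iff_gcd_eq_one]
    have h1 := Int.gcd_div_gcd_div_gcd (i := (N : ℤ) * a) (j := c) (by rw [← hG]; exact hGpos)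
    rw [← hG] at h1
    have e1 : (N : ℤ) * a / (G : ℤ) = a' := by
      rw [ha']; exact Int.mul_ediv_cancel_left _ hGne
    have e2 : c / (G : ℤ) = c' := by
      rw [hc']; exact Int.mul_ediv_cancel_left _ hGne
    rwa [e1, e2] at h1
  obtain ⟨γ', h00, h10⟩ := hcop.exists_SL2_col 0
  have hdet' : γ' 0 0 * γ' 1 1 - γ' 0 1 * γ' 1 0 = 1 := by
    have h1 := γ'.det_coe
    rwa [Matrix.det_fin_two] at h1
  set x := γ' 0 1 with hx
  set y := γ' 1 1 with hy
  rw [h00, h10] at hdet'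
  -- the entries of the triangular factor
  set B : ℤ := y * N * b - x * d with hB
  set D' : ℤ := a' * d - c' * N * b with hD'
  have hGD : (G : ℤ) * D' = N := by
    rw [hD']
    have : (G : ℤ) * (a' * d - c' * N * b) = (G * a') * d - (G * c') * N * b := by ring
    rw [this, ← ha', ← hc']
    linear_combination (N : ℤ) * hdet
  have hD'pos : 0 < D' := by
    by_contra hcon
    rw [not_lt] at hcon
    have : (G : ℤ) * D' ≤ 0 := mul_nonpos_of_nonneg_of_nonpos (by positivity) hcon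
    rw [hGD] at this
    exact absurd this (not_le.mpr hNpos)
  obtain ⟨D, hDeq⟩ := Int.eq_ofNat_of_zero_le hD'pos.le
  have hDpos : 0 < D := by
    have : (0 : ℤ) < (D : ℤ) := hDeq ▸ hD'pos
    exact_mod_cast this
  have hGDnat : G * D = N := by
    have : ((G * D : ℕ) : ℤ) = (N : ℤ) := by
      push_cast
      rw [← hDeq]; exact hGD
    exact_mod_cast this
  have hAD : (0 : ℝ) < (G : ℝ) * (D : ℝ) := by positivity
  refine ⟨γ', G, D, B, hAD, hDpos, hGDnat, ?_, ?_⟩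
  · intro hD1
    rw [hD1, mul_one] at hGDnat
    rw [Gamma0_mem, ZMod.intCast_zmod_eq_zero_iff_dvd]
    exact ⟨c', by rw [← hGDnat]; exact hc'⟩
  · -- the four integer identities
    have e00 : (N : ℤ) * a = a' * G := by rw [ha']; ring
    have e01 : (N : ℤ) * b = a' * B + x * D := by
      rw [← hDeq, hB, hD']
      linear_combination (-((N : ℤ) * b)) * hdet'
    have e10 : c = c' * G := by rw [hc']; ring
    have e11 : d = c' * B + y * D := by
      rw [← hDeq, hB, hD']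
      linear_combination (-d) * hdet'
    have r00 : (N : ℝ) * (a : ℝ) = (a' : ℝ) * (G : ℝ) := by exact_mod_cast e00
    have r01 : (N : ℝ) * (b : ℝ) = (a' : ℝ) * (B : ℝ) + (x : ℝ) * (D : ℝ) := by exact_mod_cast e01
    have r10 : (c : ℝ) = (c' : ℝ) * (G : ℝ) := by exact_mod_cast e10
    have r11 : (d : ℝ) = (c' : ℝ) * (B : ℝ) + (y : ℝ) * (D : ℝ) := by exact_mod_cast e11
    apply Matrix.GeneralLinearGroup.ext
    intro i j
    simp only [Matrix.GeneralLinearGroup.coe_mul,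
      val_heckeDiagMatrix hN, val_upperTriangularGL, Matrix.mul_apply, Fin.sum_univ_two]
    fin_cases i <;> fin_cases j
    · simpa [h00] using r00
    · simpa [h00, ← hx] using r01
    · simpa [h10] using r10
    · simpa [h10, ← hy] using r11

theorem coe_tForm (N : ℕ) [NeZero N] :
    ⇑(tForm N) = (((N : ℂ) ^ 3)⁻¹ : ℂ) • (⇑E₄ ∣[(4 : ℤ)] heckeDiagMatrix N) := rfl

/-- The slash translates of `t` by elements of `SL(2, ℤ)`, made explicit. -/
theorem tForm_slash_eq (N : ℕ) [NeZero N] (γ : SL(2, ℤ)) :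
    ∃ (D : ℕ) (β : GL (Fin 2) ℝ), 0 < D ∧ (D = 1 → γ ∈ Gamma0 N) ∧ β 1 0 = 0 ∧
      ∀ z : ℍ, ((⇑(tForm N)) ∣[(4 : ℤ)] γ) z = (((D : ℂ) ^ 4)⁻¹ : ℂ) * E₄ (β • z) := by
  have hN : N ≠ 0 := NeZero.ne N
  have hN' : (N : ℂ) ≠ 0 := by exact_mod_cast hN
  obtain ⟨γ', A, D, B, hAD, hDpos, hADN, hmem, hmat⟩ := exists_hermite N γ
  have hD' : (D : ℂ) ≠ 0 := by exact_mod_cast hDpos.ne'
  refine ⟨D, upperTriangularGL (A : ℝ) (B : ℝ) (D : ℝ) hAD.ne', hDpos, hmem,
    by simp [val_upperTriangularGL], fun z => ?_⟩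
  have hinv : (⇑E₄ ∣[(4 : ℤ)] (γ' : GL (Fin 2) ℝ)) = ⇑E₄ :=
    SlashInvariantFormClass.slash_action_eq E₄ _ ⟨γ', rfl⟩
  have h1 : (⇑(tForm N)) ∣[(4 : ℤ)] γ =
      (((N : ℂ) ^ 3)⁻¹ : ℂ) •
        (⇑E₄ ∣[(4 : ℤ)] upperTriangularGL (A : ℝ) (B : ℝ) (D : ℝ) hAD.ne') := by
    rw [coe_tForm, SL_smul_slash, SL_slash, ← SlashAction.slash_mul, hmat,
      SlashAction.slash_mul, hinv]
  rw [h1, Pi.smul_apply, slash_upperTriangularGL_apply (4 : ℤ) (B : ℝ) hAD, smul_eq_mul]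
  have hcast : (((A : ℝ) * (D : ℝ) : ℝ) : ℂ) = (N : ℂ) := by
    rw [← hADN]; push_cast; ring
  rw [hcast, show ((4 : ℤ) - 1) = ((3 : ℕ) : ℤ) by norm_num, zpow_natCast,
    show (-(4 : ℤ)) = -((4 : ℕ) : ℤ) by norm_num, zpow_neg, zpow_natCast]
  simp only [Complex.ofReal_natCast]
  field_simp

/-- `t(z) = E₄(N z)` tends to `1` at `i∞`. -/
theorem tendsto_tForm_atImInfty (N : ℕ) [NeZero N] :
    Filter.Tendsto (⇑(tForm N)) atImInfty (nhds 1) := by
  have hN : N ≠ 0 := NeZero.ne N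
  have h : (⇑(tForm N)) = ⇑E₄ ∘ fun z : ℍ => heckeDiagMatrix N • z := by
    funext z
    exact tForm_apply N z
  rw [h]
  exact tendsto_E₄_atImInfty.comp (tendsto_smul_atImInfty (by simp [val_heckeDiagMatrix hN]))

/-- The stabiliser of `t` in `SL(2, ℤ)` is contained in `Γ₀(N)`: for `γ ∉ Γ₀(N)` the translate
`t ∣[4] γ` is different from `t` (they have different limits at `i∞`). -/
theorem tForm_slash_ne (N : ℕ) [NeZero N] (γ : SL(2, ℤ)) (h : γ ∉ Gamma0 N) :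
    (⇑(tForm N)) ∣[(4 : ℤ)] γ ≠ ⇑(tForm N) := by
  intro heq
  obtain ⟨D, β, hDpos, hmem, hβ, hval⟩ := tForm_slash_eq N γ
  have hD' : (D : ℂ) ≠ 0 := by exact_mod_cast hDpos.ne'
  have hlim1 : Filter.Tendsto ((⇑(tForm N)) ∣[(4 : ℤ)] γ) atImInfty
      (nhds ((((D : ℂ) ^ 4)⁻¹ : ℂ) * 1)) := by
    have : ((⇑(tForm N)) ∣[(4 : ℤ)] γ) = fun z : ℍ => (((D : ℂ) ^ 4)⁻¹ : ℂ) * E₄ (β • z) :=
      funext hval
    rw [this]
    exact (tendsto_E₄_atImInfty.comp (tendsto_smul_atImInfty hβ)).const_mul _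
  rw [heq, mul_one] at hlim1
  have huniq := tendsto_nhds_unique hlim1 (tendsto_tForm_atImInfty N)
  have hD4 : (D : ℂ) ^ 4 = 1 := by
    have := congrArg (fun x : ℂ => x * (D : ℂ) ^ 4) huniq
    simp only [one_mul] at this
    rw [inv_mul_cancel₀ (pow_ne_zero 4 hD')] at this
    exact this.symm
  have hD4' : D ^ 4 = 1 := by exact_mod_cast hD4
  have hD1 : D = 1 := by
    rcases Nat.pow_eq_one.mp hD4' with h1 | h1
    · exact h1
    · exact absurd h1 (by norm_num)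
  exact h (hmem hD1)

end Fermat.Agent.S23
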