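/-
S23 / P3: Cramer / Lagrange interpolation.  Every modular form `f` on `Γ₀(N)` satisfies
`r * f = ∑ j < μ, r_j * t ^ j` with `t = tForm N` and level one forms `r ≠ 0`, `r_j`.
The level-independent core is in `CramerCore.lean`.
-/
import Mathlib
import Fermat.Agent.S23.T
import Fermat.Agent.S23.CramerCore

set_option autoImplicit false

open UpperHalfPlane ModularForm SlashInvariantForm
open scoped MatrixGroups ModularForm

namespace Fermat.Agent.S23

/-- The `SL(2,ℤ)`-translates of `tForm N` indexed by `SL(2,ℤ)/Γ₀(N)` are pairwise distinct. -/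
lemma cramer_tForm_injective (N : ℕ) [NeZero N] :
    Function.Injective (fun q : 𝒮ℒ ⧸
        ((CongruenceSubgroup.Gamma0 N : Subgroup (GL (Fin 2) ℝ)).subgroupOf 𝒮ℒ) =>
      quotientFunc (tForm N) q) := by
  intro q q'
  induction q using Quotient.inductionOn with
  | h g =>
  induction q' using Quotient.inductionOn with
  | h g' =>
    intro h
    simp only [quotientFunc_mk] at h
    -- `t ∣ (g⁻¹ g') = t`
    have h1 : (⇑(tForm N)) ∣[(4 : ℤ)] (g.val⁻¹ * g'.val) = ⇑(tForm N) := by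
      rw [SlashAction.slash_mul, h, ← SlashAction.slash_mul, inv_mul_cancel, SlashAction.slash_one]
    obtain ⟨γ, hγ⟩ : ∃ γ : SL(2, ℤ), Matrix.SpecialLinearGroup.mapGL ℝ γ = g.val⁻¹ * g'.val :=
      (mul_mem (inv_mem g.2) g'.2)
    have h2 : γ ∈ CongruenceSubgroup.Gamma0 N := by
      by_contra hγN
      refine tForm_slash_ne N γ hγN ?_
      rw [ModularForm.SL_slash]
      exact hγ ▸ h1
    refine QuotientGroup.eq.mpr ?_
    rw [Subgroup.mem_subgroupOf]
    push_cast
    rw [← hγ]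
    exact Subgroup.mem_map_of_mem _ h2

theorem exists_cramer (N : ℕ) [NeZero N] (k : ℤ)
    (f : ModularForm (CongruenceSubgroup.Gamma0 N : Subgroup (GL (Fin 2) ℝ)) k) :
    ∃ (μ : ℕ) (w : ℤ) (r : ModularForm 𝒮ℒ w) (rj : (j : ℕ) → ModularForm 𝒮ℒ (w + k - 4 * j)),
      r ≠ 0 ∧ ∀ z, r z * f z = ∑ j ∈ Finset.range μ, rj j z * tForm N z ^ j :=
  exists_cramer_core f (tForm N) (cramer_tForm_injective N)

end Fermat.Agent.S23
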