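import Mathlib
import Fermat.Agent.S23.Defs

/-!
# Bounded denominators (S23 / P6)

Pure power-series algebra.

* `span_intSeries_mul`: the complex span of the integral power series is closed under
  multiplication.
* `bounded_denominators`: a power series `x` with rational coefficients which is a quotient
  `G / R` of elements of the span of the integral series and which satisfies a monic equation
  with coefficients in that span has bounded denominators.

Proof of the second statement: a `ℚ`-linear functional `π : ℂ → ℚ` applied coefficientwise maps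
the span of the integral series to rational series with bounded denominators and commutes with
multiplication by rational series.  Applying suitable functionals to the two hypotheses we obtain
`A * x = B` with `A, B ∈ ℤ⟦X⟧`, `A ≠ 0`, and a monic equation over `ℤ⟦X⟧` for `M * x`.  As `ℤ⟦X⟧`
is a unique factorisation domain, it is integrally closed, so `M * x ∈ ℤ⟦X⟧`.
-/

set_option autoImplicit false

namespace Fermat.Agent.S23

open Polynomial in
/-- Abstract integrality lemma: in an integrally closed domain `R` mapping injectively to a domain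
`S`, an element `y : S` which is a fraction `B / A` of elements of `R` and which satisfies a monic
equation over `R` comes from `R`. -/
theorem denominators_exists_of_integral {R S : Type*} [CommRing R] [IsDomain R]
    [IsIntegrallyClosed R] [CommRing S] [IsDomain S] (ι : R →+* S) (hι : Function.Injective ι)
    (A B : R) (hA : A ≠ 0) (y : S) (hAB : ι A * y = ι B) (μ : ℕ) (d : ℕ → R) (hd0 : d 0 = 1)
    (hd : ∑ i ∈ Finset.range (μ + 1), ι (d i) * y ^ (μ - i) = 0) : ∃ z : R, ι z = y := by
  classical
  -- the homogenised identity in `R`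
  have key : ∑ i ∈ Finset.range (μ + 1), d i * B ^ (μ - i) * A ^ i = 0 := by
    apply hι
    rw [map_zero, map_sum]
    have : ∀ i ∈ Finset.range (μ + 1), ι (d i * B ^ (μ - i) * A ^ i)
        = ι A ^ μ * (ι (d i) * y ^ (μ - i)) := by
      intro i hi
      have hi' : i ≤ μ := Nat.lt_succ_iff.mp (Finset.mem_range.mp hi)
      rw [map_mul, map_mul, map_pow, map_pow, ← hAB, mul_pow]
      have : ι A ^ μ = ι A ^ (μ - i) * ι A ^ i := by
        rw [← pow_add, Nat.sub_add_cancel hi']
      rw [this]; ring
    rw [Finset.sum_congr rfl this, ← Finset.mul_sum, hd, mul_zero]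
  have hα : algebraMap R (FractionRing R) A ≠ 0 := by
    simpa using (IsFractionRing.injective R (FractionRing R)).ne hA
  -- the monic polynomial
  let p : R[X] := ∑ i ∈ Finset.range (μ + 1), C (d i) * X ^ (μ - i)
  have hp : p.Monic := by
    have : p = X ^ μ + ∑ i ∈ Finset.range μ, C (d (i + 1)) * X ^ (μ - (i + 1)) := by
      simp only [p]
      rw [Finset.sum_range_succ', hd0]
      simp [add_comm]
    rw [this]
    apply monic_X_pow_add
    refine lt_of_le_of_lt (degree_sum_le _ _) ?_
    refine (Finset.sup_lt_iff (WithBot.bot_lt_coe μ)).mpr fun i hi => ?_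
    refine lt_of_le_of_lt (degree_C_mul_X_pow_le _ _) ?_
    have hi' : i < μ := Finset.mem_range.mp hi
    exact WithBot.coe_lt_coe.mpr (by omega : μ - (i + 1) < μ)
  have hint : IsIntegral R
      (algebraMap R (FractionRing R) B / algebraMap R (FractionRing R) A) := by
    refine ⟨p, hp, ?_⟩
    simp only [p, eval₂_finsetSum, eval₂_mul, eval₂_C, eval₂_pow, eval₂_X]
    apply mul_left_cancel₀ (pow_ne_zero μ hα)
    rw [mul_zero, Finset.mul_sum]
    have : ∀ i ∈ Finset.range (μ + 1), algebraMap R (FractionRing R) A ^ μ *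
        (algebraMap R (FractionRing R) (d i) *
          (algebraMap R (FractionRing R) B / algebraMap R (FractionRing R) A) ^ (μ - i))
        = algebraMap R (FractionRing R) (d i * B ^ (μ - i) * A ^ i) := by
      intro i hi
      have hi' : i ≤ μ := Nat.lt_succ_iff.mp (Finset.mem_range.mp hi)
      have h1 : algebraMap R (FractionRing R) A ^ μ
          = algebraMap R (FractionRing R) A ^ (μ - i) * algebraMap R (FractionRing R) A ^ i := by
        rw [← pow_add, Nat.sub_add_cancel hi']
      rw [h1, map_mul, map_mul, map_pow, map_pow, div_pow]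
      field_simp
    rw [Finset.sum_congr rfl this, ← map_sum, key, map_zero]
  obtain ⟨z, hz⟩ := IsIntegrallyClosed.isIntegral_iff.mp hint
  refine ⟨z, ?_⟩
  have hzA : z * A = B := by
    apply IsFractionRing.injective R (FractionRing R)
    rw [map_mul, hz]
    field_simp
  have h3 : ι A * (ι z - y) = 0 := by
    rw [mul_sub, hAB, ← hzA, map_mul]; ring
  have hιA : ι A ≠ 0 := by
    intro h; exact hA (hι (by rw [h, map_zero]))
  rcases mul_eq_zero.mp h3 with h | h
  · exact absurd h hιA
  · exact sub_eq_zero.mp h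

/-- A `ℚ`-linear functional on `ℂ` taking the value `1` at a given nonzero number. -/
theorem denominators_exists_functional (v : ℂ) (hv : v ≠ 0) : ∃ π : ℂ →ₗ[ℚ] ℚ, π v = 1 := by
  obtain ⟨g, hg⟩ := LinearMap.exists_leftInverse_of_injective (LinearMap.toSpanSingleton ℚ ℂ v)
    (LinearMap.ker_toSpanSingleton ℚ hv)
  exact ⟨g, by simpa using LinearMap.congr_fun hg 1⟩

/-- Apply a `ℚ`-linear functional `ℂ → ℚ` to all coefficients of a power series. -/
noncomputable def denominators_proj (π : ℂ →ₗ[ℚ] ℚ) : PowerSeries ℂ →+ PowerSeries ℚ where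
  toFun F := PowerSeries.mk fun n => π (PowerSeries.coeff n F)
  map_zero' := by ext n; simp
  map_add' F G := by ext n; simp

theorem denominators_coeff_proj (π : ℂ →ₗ[ℚ] ℚ) (F : PowerSeries ℂ) (n : ℕ) :
    PowerSeries.coeff n (denominators_proj π F) = π (PowerSeries.coeff n F) := by
  simp [denominators_proj]

/-- The coefficientwise projection commutes with multiplication by a rational series. -/
theorem denominators_proj_mul_rat (π : ℂ →ₗ[ℚ] ℚ) (F : PowerSeries ℂ) (x₀ : PowerSeries ℚ) :
    denominators_proj π (F * x₀.map (algebraMap ℚ ℂ)) = denominators_proj π F * x₀ := by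
  ext n
  rw [denominators_coeff_proj, PowerSeries.coeff_mul, PowerSeries.coeff_mul, map_sum]
  refine Finset.sum_congr rfl fun ij _ => ?_
  rw [denominators_coeff_proj, PowerSeries.coeff_map]
  have : PowerSeries.coeff ij.1 F * algebraMap ℚ ℂ (PowerSeries.coeff ij.2 x₀)
      = (PowerSeries.coeff ij.2 x₀) • PowerSeries.coeff ij.1 F := by
    rw [Algebra.smul_def, mul_comm]
  rw [this, map_smul, smul_eq_mul, mul_comm]

/-- The coefficientwise projection of a complex multiple of an integral series. -/
theorem denominators_proj_smul_int (π : ℂ →ₗ[ℚ] ℚ) (c : ℂ) (P₀ : PowerSeries ℤ) :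
    denominators_proj π (c • P₀.map (Int.castRingHom ℂ))
      = PowerSeries.C (π c) * P₀.map (Int.castRingHom ℚ) := by
  ext n
  rw [denominators_coeff_proj, PowerSeries.coeff_C_mul, PowerSeries.coeff_map,
    PowerSeries.coeff_smul, PowerSeries.coeff_map]
  have : c • (Int.castRingHom ℂ) (PowerSeries.coeff n P₀)
      = ((PowerSeries.coeff n P₀ : ℤ) : ℚ) • c := by
    rw [smul_eq_mul, Rat.smul_def, mul_comm]; simp
  rw [this, map_smul, smul_eq_mul, mul_comm]; simp

theorem denominators_intSeries_eq_map {P : PowerSeries ℂ} (hP : P ∈ IntSeries) :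
    ∃ P₀ : PowerSeries ℤ, P = P₀.map (Int.castRingHom ℂ) := by
  choose m hm using hP
  exact ⟨PowerSeries.mk m, by ext n; simp [hm]⟩

/-- The coefficientwise projection of an element of the span of the integral series has bounded
denominators. -/
theorem denominators_proj_span (π : ℂ →ₗ[ℚ] ℚ) {F : PowerSeries ℂ}
    (hF : F ∈ Submodule.span ℂ IntSeries) :
    ∃ M : ℤ, M ≠ 0 ∧ ∃ Z : PowerSeries ℤ,
      (M : PowerSeries ℚ) * denominators_proj π F = Z.map (Int.castRingHom ℚ) := by
  induction hF using Submodule.closure_induction with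
  | zero => exact ⟨1, one_ne_zero, 0, by simp⟩
  | add F G _ _ hF hG =>
    obtain ⟨M₁, hM₁, Z₁, h₁⟩ := hF
    obtain ⟨M₂, hM₂, Z₂, h₂⟩ := hG
    refine ⟨M₁ * M₂, mul_ne_zero hM₁ hM₂,
      (M₂ : PowerSeries ℤ) * Z₁ + (M₁ : PowerSeries ℤ) * Z₂, ?_⟩
    rw [map_add, map_add, map_mul, map_mul, ← h₁, ← h₂, map_intCast, map_intCast]
    push_cast
    ring
  | smul_mem c P hP =>
    obtain ⟨P₀, rfl⟩ := denominators_intSeries_eq_map hP
    rw [denominators_proj_smul_int]
    refine ⟨((π c).den : ℤ), by exact_mod_cast (π c).den_ne_zero,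
      ((π c).num : PowerSeries ℤ) * P₀, ?_⟩
    rw [map_mul, map_intCast, ← mul_assoc]
    congr 1
    rw [← map_intCast (PowerSeries.C (R := ℚ)), ← map_intCast (PowerSeries.C (R := ℚ)), ← map_mul]
    congr 1
    push_cast
    rw [mul_comm]
    exact Rat.mul_den_eq_num (π c)

theorem span_intSeries_mul {p q : PowerSeries ℂ} (hp : p ∈ Submodule.span ℂ IntSeries)
    (hq : q ∈ Submodule.span ℂ IntSeries) : p * q ∈ Submodule.span ℂ IntSeries := by
  have h : p * q ∈ Submodule.span ℂ IntSeries * Submodule.span ℂ IntSeries :=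
    Submodule.mul_mem_mul hp hq
  rw [Submodule.span_mul_span] at h
  refine Submodule.span_mono ?_ h
  intro x hx
  obtain ⟨a, ha, b, hb, rfl⟩ := Set.mem_mul.mp hx
  intro n
  choose fa hfa using ha
  choose fb hfb using hb
  refine ⟨∑ ij ∈ Finset.HasAntidiagonal.antidiagonal n, fa ij.1 * fb ij.2, ?_⟩
  rw [PowerSeries.coeff_mul]
  push_cast
  exact Finset.sum_congr rfl fun ij _ => by rw [hfa, hfb]

theorem bounded_denominators (x : PowerSeries ℂ) (hx : ∀ n, ∃ r : ℚ, PowerSeries.coeff n x = (r : ℂ))
    (R G : PowerSeries ℂ) (hR : R ∈ Submodule.span ℂ IntSeries) (hG : G ∈ Submodule.span ℂ IntSeries)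
    (hR0 : R ≠ 0) (h1 : R * x = G)
    (μ : ℕ) (C : ℕ → PowerSeries ℂ) (hC : ∀ i, C i ∈ Submodule.span ℂ IntSeries) (hC0 : C 0 = 1)
    (h2 : ∑ i ∈ Finset.range (μ + 1), C i * x ^ (μ - i) = 0) :
    ∃ D : ℤ, D ≠ 0 ∧ ∀ n, ∃ m : ℤ, (D : ℂ) * PowerSeries.coeff n x = (m : ℂ) := by
  classical
  -- `x` comes from a rational power series `x₀`
  obtain ⟨x₀, rfl⟩ : ∃ x₀ : PowerSeries ℚ, x = x₀.map (algebraMap ℚ ℂ) := by
    choose r hr using hx
    exact ⟨PowerSeries.mk r, by ext n; simp [hr]⟩
  -- the two functionals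
  obtain ⟨n₀, hn₀⟩ : ∃ n₀, PowerSeries.coeff n₀ R ≠ 0 := by
    by_contra h
    exact hR0 (PowerSeries.ext fun n => by
      rw [map_zero]; exact not_not.mp fun hn => h ⟨n, hn⟩)
  obtain ⟨π₂, hπ₂⟩ := denominators_exists_functional (PowerSeries.coeff n₀ R) hn₀
  obtain ⟨π₁, hπ₁⟩ := denominators_exists_functional (1 : ℂ) one_ne_zero
  -- the fraction `A * x₀ = B`
  have e1 : denominators_proj π₂ R * x₀ = denominators_proj π₂ G := by
    rw [← denominators_proj_mul_rat, h1]
  obtain ⟨MR, hMR, ZR, hZR⟩ := denominators_proj_span π₂ hR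
  obtain ⟨MG, hMG, ZG, hZG⟩ := denominators_proj_span π₂ hG
  have hprojR : denominators_proj π₂ R ≠ 0 := by
    intro h
    have h' := congrArg (PowerSeries.coeff n₀) h
    rw [denominators_coeff_proj, hπ₂, map_zero] at h'
    exact one_ne_zero h'
  have hinj : Function.Injective (PowerSeries.map (Int.castRingHom ℚ)) :=
    PowerSeries.map_injective _ (RingHom.injective_int _)
  have hMRq : ((MR : ℤ) : PowerSeries ℚ) ≠ 0 := by
    rw [← map_intCast (PowerSeries.C (R := ℚ))]
    intro h
    have h' := congrArg (PowerSeries.coeff 0) h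
    rw [PowerSeries.coeff_zero_C, map_zero] at h'
    exact hMR (by exact_mod_cast h')
  have hMGq : ((MG : ℤ) : PowerSeries ℚ) ≠ 0 := by
    rw [← map_intCast (PowerSeries.C (R := ℚ))]
    intro h
    have h' := congrArg (PowerSeries.coeff 0) h
    rw [PowerSeries.coeff_zero_C, map_zero] at h'
    exact hMG (by exact_mod_cast h')
  have hA : (MG : PowerSeries ℤ) * ZR ≠ 0 := by
    intro h
    have h' := congrArg (PowerSeries.map (Int.castRingHom ℚ)) h
    rw [map_mul, map_intCast, ← hZR, map_zero] at h'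
    exact mul_ne_zero hMGq (mul_ne_zero hMRq hprojR) h'
  have hAB : PowerSeries.map (Int.castRingHom ℚ) ((MG : PowerSeries ℤ) * ZR) * x₀
      = PowerSeries.map (Int.castRingHom ℚ) ((MR : PowerSeries ℤ) * ZG) := by
    rw [map_mul, map_intCast, ← hZR, map_mul, map_intCast, ← hZG, ← e1]
    ring
  -- the monic equation
  have e2 : ∑ i ∈ Finset.range (μ + 1), denominators_proj π₁ (C i) * x₀ ^ (μ - i) = 0 := by
    have h := congrArg (denominators_proj π₁) h2
    rw [map_sum, map_zero] at h
    rw [← h]
    refine Finset.sum_congr rfl fun i _ => ?_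
    rw [← map_pow, denominators_proj_mul_rat]
  have e3 : denominators_proj π₁ (C 0) = 1 := by
    rw [hC0]
    ext n
    rw [denominators_coeff_proj, PowerSeries.coeff_one, PowerSeries.coeff_one]
    split_ifs
    · exact hπ₁
    · exact map_zero _
  choose Mi hMi Zi hZi using fun i => denominators_proj_span π₁ (hC i)
  set s := Finset.range (μ + 1) with hs
  set M : ℤ := ∏ j ∈ s, Mi j with hM
  have hM0 : M ≠ 0 := Finset.prod_ne_zero_iff.mpr fun j _ => hMi j
  have hMZ : ∀ i ∈ s, (M : PowerSeries ℚ) * denominators_proj π₁ (C i)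
      = PowerSeries.map (Int.castRingHom ℚ)
          (((∏ j ∈ s.erase i, Mi j : ℤ) : PowerSeries ℤ) * Zi i) := by
    intro i hi
    rw [map_mul, map_intCast, ← hZi i, hM, ← Finset.prod_erase_mul s Mi hi]
    push_cast
    ring
  let d : ℕ → PowerSeries ℤ := fun i =>
    if i = 0 then 1 else (M : PowerSeries ℤ) ^ (i - 1) *
      (((∏ j ∈ s.erase i, Mi j : ℤ) : PowerSeries ℤ) * Zi i)
  have hd0 : d 0 = 1 := by simp [d]
  have hdi : ∀ i ∈ s, PowerSeries.map (Int.castRingHom ℚ) (d i)
      = (M : PowerSeries ℚ) ^ i * denominators_proj π₁ (C i) := by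
    intro i hi
    by_cases h0 : i = 0
    · subst h0
      rw [hd0, e3, map_one, pow_zero, mul_one]
    · have hpow : (M : PowerSeries ℚ) ^ i = (M : PowerSeries ℚ) ^ (i - 1) * M := by
        rw [← pow_succ, Nat.sub_add_cancel (Nat.pos_of_ne_zero h0)]
      simp only [d, if_neg h0]
      rw [map_mul, map_pow, map_intCast, ← hMZ i hi, hpow]
      ring
  have hd : ∑ i ∈ Finset.range (μ + 1), PowerSeries.map (Int.castRingHom ℚ) (d i)
      * ((M : PowerSeries ℚ) * x₀) ^ (μ - i) = 0 := by
    have : ∀ i ∈ s, PowerSeries.map (Int.castRingHom ℚ) (d i)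
        * ((M : PowerSeries ℚ) * x₀) ^ (μ - i)
        = (M : PowerSeries ℚ) ^ μ * (denominators_proj π₁ (C i) * x₀ ^ (μ - i)) := by
      intro i hi
      have hi' : i ≤ μ := Nat.lt_succ_iff.mp (Finset.mem_range.mp hi)
      have hpow : (M : PowerSeries ℚ) ^ μ = (M : PowerSeries ℚ) ^ i * (M : PowerSeries ℚ) ^ (μ - i) := by
        rw [← pow_add, Nat.add_sub_cancel' hi']
      rw [hdi i hi, hpow, mul_pow]
      ring
    rw [Finset.sum_congr rfl this, ← Finset.mul_sum, e2, mul_zero]
  have hAB' : PowerSeries.map (Int.castRingHom ℚ) ((MG : PowerSeries ℤ) * ZR)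
      * ((M : PowerSeries ℚ) * x₀)
      = PowerSeries.map (Int.castRingHom ℚ) ((M : PowerSeries ℤ) * ((MR : PowerSeries ℤ) * ZG)) := by
    rw [map_mul (PowerSeries.map (Int.castRingHom ℚ)) (M : PowerSeries ℤ), map_intCast, ← hAB]
    ring
  obtain ⟨z, hz⟩ := denominators_exists_of_integral (PowerSeries.map (Int.castRingHom ℚ)) hinj
    ((MG : PowerSeries ℤ) * ZR) ((M : PowerSeries ℤ) * ((MR : PowerSeries ℤ) * ZG)) hA
    ((M : PowerSeries ℚ) * x₀) hAB' μ d hd0 hd
  refine ⟨M, hM0, fun n => ⟨PowerSeries.coeff n z, ?_⟩⟩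
  have h := congrArg (PowerSeries.coeff n) hz
  rw [PowerSeries.coeff_map, ← map_intCast (PowerSeries.C (R := ℚ)), PowerSeries.coeff_C_mul] at h
  rw [PowerSeries.coeff_map]
  have h' := congrArg (algebraMap ℚ ℂ) h
  rw [map_mul] at h'
  simpa using h'.symm

end Fermat.Agent.S23
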