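/-
S23 / P2: elementary symmetric functions of the `SL(2,ℤ)`-translates of a modular form
are level one modular forms; the resulting monic equation.
-/
import Mathlib

set_option autoImplicit false

open UpperHalfPlane ModularForm SlashInvariantForm Filter
open scoped MatrixGroups ModularForm Manifold Topology

namespace Fermat.Agent.S23

noncomputable section

variable {𝒢 : Subgroup (GL (Fin 2) ℝ)} {F : Type*} [FunLike F ℍ ℂ] {k : ℤ}

local notation "𝒬" => 𝒮ℒ ⧸ (𝒢.subgroupOf 𝒮ℒ)

/-- The `i`-th elementary symmetric function of the translates of `f`. -/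
def esymmFun (f : F) [SlashInvariantFormClass F 𝒢 k] [𝒢.IsFiniteRelIndex 𝒮ℒ] (i : ℕ) : ℍ → ℂ :=
  letI := Fintype.ofFinite 𝒬
  ∑ s ∈ Finset.powersetCard i (Finset.univ : Finset 𝒬), ∏ q ∈ s, quotientFunc f q

lemma esymmFun_slash (f : F) [SlashInvariantFormClass F 𝒢 k] [𝒢.IsFiniteRelIndex 𝒮ℒ] (i : ℕ)
    {h : GL (Fin 2) ℝ} (hh : h ∈ 𝒮ℒ) :
    esymmFun f i ∣[k * i] h = esymmFun f i := by
  classical
  let := Fintype.ofFinite 𝒬
  have hdet : |h.det.val| = 1 := Subgroup.HasDetPlusMinusOne.abs_det hh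
  let e : 𝒬 ≃ 𝒬 := MulAction.toPerm ((⟨h, hh⟩ : 𝒮ℒ)⁻¹)
  have key : ∀ s ∈ Finset.powersetCard i (Finset.univ : Finset 𝒬),
      (∏ q ∈ s, quotientFunc f q) ∣[k * i] h = ∏ q ∈ s.map e.toEmbedding, quotientFunc f q := by
    intro s hs
    have hcard : s.card = i := (Finset.mem_powersetCard.mp hs).2
    rw [← hcard, ModularForm.prod_slash, hdet, one_zpow, one_smul, Finset.prod_map]
    refine Finset.prod_congr rfl fun q _ => ?_
    rw [quotientFunc_smul f hh q]
    rfl
  unfold esymmFun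
  rw [SlashAction.sum_slash, Finset.sum_congr rfl key]
  refine Finset.sum_nbij' (fun s => s.map e.toEmbedding) (fun s => s.map e.symm.toEmbedding)
    ?_ ?_ ?_ ?_ ?_
  · intro s hs
    simp only [Finset.mem_powersetCard, Finset.subset_univ, true_and] at hs ⊢
    rw [Finset.card_map, hs]
  · intro s hs
    simp only [Finset.mem_powersetCard, Finset.subset_univ, true_and] at hs ⊢
    rw [Finset.card_map, hs]
  · intro s _
    ext q
    simp
  · intro s _
    ext q
    simp
  · intro s _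
    rfl

lemma quotientFunc_mdiff (f : F) [ModularFormClass F 𝒢 k] (q : 𝒬) :
    MDiff (quotientFunc f q) := by
  induction q using Quotient.inductionOn with
  | h r => exact (ModularForm.translate f r.val⁻¹).holo'

lemma quotientFunc_isBdd (f : F) [ModularFormClass F 𝒢 k] [𝒢.IsArithmetic] (q : 𝒬) :
    IsBoundedAtImInfty (quotientFunc f q) := by
  induction q using Quotient.inductionOn with
  | h r =>
    obtain ⟨γ, hγ⟩ : ∃ γ : SL(2, ℤ), Matrix.SpecialLinearGroup.mapGL ℝ γ = r.val⁻¹ :=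
      (inv_mem r.2)
    rw [quotientFunc_mk, ← hγ]
    exact ModularFormClass.bdd_at_infty_slash f γ

lemma quotientFunc_isZero (f : F) [CuspFormClass F 𝒢 k] [𝒢.IsArithmetic] (q : 𝒬) :
    IsZeroAtImInfty (quotientFunc f q) := by
  induction q using Quotient.inductionOn with
  | h r =>
    obtain ⟨γ, hγ⟩ : ∃ γ : SL(2, ℤ), Matrix.SpecialLinearGroup.mapGL ℝ γ = r.val⁻¹ :=
      (inv_mem r.2)
    rw [quotientFunc_mk, ← hγ]
    exact CuspFormClass.zero_at_infty_slash f γ

lemma esymmFun_mdiff (f : F) [ModularFormClass F 𝒢 k] [𝒢.IsFiniteRelIndex 𝒮ℒ] (i : ℕ) :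
    MDiff (esymmFun f i) := by
  let := Fintype.ofFinite 𝒬
  unfold esymmFun
  exact .sum fun s _ => .prod fun q _ => quotientFunc_mdiff f q

lemma esymmFun_isBdd (f : F) [ModularFormClass F 𝒢 k] [𝒢.IsArithmetic] (i : ℕ) :
    IsBoundedAtImInfty (esymmFun f i) := by
  let := Fintype.ofFinite 𝒬
  unfold esymmFun
  rw [IsBoundedAtImInfty, BoundedAtFilter]
  have h1 : ∀ s : Finset 𝒬, (∏ q ∈ s, quotientFunc f q) =O[atImInfty] (1 : ℍ → ℝ) := by
    intro s
    rw [show (1 : ℍ → ℝ) = (fun _ ↦ ∏ _q ∈ s, (1 : ℝ)) by ext; simp, Finset.prod_fn]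
    exact .finsetProd fun q _ => quotientFunc_isBdd f q
  have := Asymptotics.IsBigO.sum (s := Finset.powersetCard i (Finset.univ : Finset 𝒬))
    (A := fun s => ∏ q ∈ s, quotientFunc f q) (g := (1 : ℍ → ℝ)) (l := atImInfty) fun s _ => h1 s
  simpa [Finset.sum_fn] using this

lemma esymmFun_isZero (f : F) [CuspFormClass F 𝒢 k] [𝒢.IsArithmetic] {i : ℕ} (hi : 1 ≤ i) :
    IsZeroAtImInfty (esymmFun f i) := by
  let := Fintype.ofFinite 𝒬
  unfold esymmFun
  rw [IsZeroAtImInfty, ZeroAtFilter]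
  have h1 : ∀ s ∈ Finset.powersetCard i (Finset.univ : Finset 𝒬),
      Tendsto (∏ q ∈ s, quotientFunc f q) atImInfty (𝓝 0) := by
    intro s hs
    have hcard : s.card = i := (Finset.mem_powersetCard.mp hs).2
    have := tendsto_finsetProd (s := s) (f := fun q => quotientFunc f q)
      (a := fun _ => (0 : ℂ)) (x := atImInfty) fun q _ => quotientFunc_isZero f q
    simp only [Finset.prod_const, hcard] at this
    rw [zero_pow (by omega)] at this
    convert this using 1
    ext z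
    simp [Finset.prod_apply]
  have := tendsto_finsetSum (Finset.powersetCard i (Finset.univ : Finset 𝒬)) h1
  simp only [Finset.sum_const_zero] at this
  convert this using 1
  ext z
  simp [Finset.sum_apply]

/-- The elementary symmetric function of the translates, as a level one modular form. -/
def esymmForm (f : F) [ModularFormClass F 𝒢 k] [𝒢.IsArithmetic] (i : ℕ) :
    ModularForm 𝒮ℒ (k * i) where
  toFun := esymmFun f i
  slash_action_eq' h hh := esymmFun_slash f i hh
  holo' := esymmFun_mdiff f i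
  bdd_at_cusps' {c} hc := by
    rw [OnePoint.isBoundedAt_iff_forall_SL2Z hc]
    intro γ _
    have hγ : esymmFun f i ∣[k * i] γ = esymmFun f i :=
      esymmFun_slash f i (h := Matrix.SpecialLinearGroup.mapGL ℝ γ) ⟨γ, rfl⟩
    rw [hγ]
    exact esymmFun_isBdd f i

@[simp] lemma esymmForm_apply (f : F) [ModularFormClass F 𝒢 k] [𝒢.IsArithmetic] (i : ℕ) (z : ℍ) :
    esymmForm f i z = esymmFun f i z := rfl

lemma esymmFun_zero (f : F) [SlashInvariantFormClass F 𝒢 k] [𝒢.IsFiniteRelIndex 𝒮ℒ] (z : ℍ) :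
    esymmFun f 0 z = 1 := by
  let := Fintype.ofFinite 𝒬
  simp [esymmFun]

/-- The monic relation satisfied by `f` with the elementary symmetric functions as
coefficients. -/
lemma sum_esymmFun_mul_pow (f : F) [SlashInvariantFormClass F 𝒢 k] [𝒢.IsFiniteRelIndex 𝒮ℒ]
    (z : ℍ) :
    ∑ i ∈ Finset.range (Nat.card 𝒬 + 1),
      (-1 : ℂ) ^ i * esymmFun f i z * f z ^ (Nat.card 𝒬 - i) = 0 := by
  classical
  let := Fintype.ofFinite 𝒬
  let m : Multiset ℂ := (Finset.univ : Finset 𝒬).val.map fun q => quotientFunc f q z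
  have hcard : Multiset.card m = Nat.card 𝒬 := by
    simp [m, Nat.card_eq_fintype_card]
  have hpoly := Multiset.prod_X_sub_X_eq_sum_esymm m
  have hmem : f z ∈ m := by
    refine Multiset.mem_map.mpr ⟨⟦1⟧, Finset.mem_univ_val _, ?_⟩
    simp
  have heval := congrArg (Polynomial.eval (f z)) hpoly
  have hzero : Polynomial.eval (f z) (Multiset.map (fun t => Polynomial.X - Polynomial.C t) m).prod
      = 0 := by
    rw [Polynomial.eval_multiset_prod]
    refine Multiset.prod_eq_zero ?_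
    refine Multiset.mem_map.mpr ⟨Polynomial.X - Polynomial.C (f z), ?_, by simp⟩
    exact Multiset.mem_map.mpr ⟨f z, hmem, rfl⟩
  rw [hzero, Polynomial.eval_finsetSum, hcard] at heval
  rw [heval]
  refine Finset.sum_congr rfl fun i _ => ?_
  have hes : m.esymm i = esymmFun f i z := by
    simp only [m, esymmFun, Finset.esymm_map_val, Finset.sum_apply, Finset.prod_apply]
  simp [hes, mul_assoc]

/-- **P2.** Every modular form for an arithmetic subgroup satisfies a monic equation whose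
coefficients are level one modular forms (of the appropriate weights). -/
theorem exists_monic_levelOne_gen [𝒢.IsArithmetic] (f : F) [ModularFormClass F 𝒢 k] :
    ∃ (μ : ℕ) (c : (i : ℕ) → ModularForm 𝒮ℒ (k * i)), (∀ z, c 0 z = 1) ∧
      ∀ z, ∑ i ∈ Finset.range (μ + 1), c i z * f z ^ (μ - i) = 0 := by
  refine ⟨Nat.card 𝒬, fun i => (-1 : ℂ) ^ i • esymmForm f i, fun z => ?_, fun z => ?_⟩
  · have h1 : (esymmForm f 0) z = 1 := esymmFun_zero f z
    simpa using h1
  · simpa using sum_esymmFun_mul_pow f z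

/-- **P2, cusp form version.** The non-leading coefficients vanish at `i∞`. -/
theorem exists_monic_levelOne_cusp_gen [𝒢.IsArithmetic] (f : F) [CuspFormClass F 𝒢 k] :
    ∃ (μ : ℕ) (c : (i : ℕ) → ModularForm 𝒮ℒ (k * i)), (∀ z, c 0 z = 1) ∧
      (∀ i, 1 ≤ i → IsZeroAtImInfty (c i)) ∧
      ∀ z, ∑ i ∈ Finset.range (μ + 1), c i z * f z ^ (μ - i) = 0 := by
  refine ⟨Nat.card 𝒬, fun i => (-1 : ℂ) ^ i • esymmForm f i, fun z => ?_, fun i hi => ?_,
    fun z => ?_⟩
  · have h1 : (esymmForm f 0) z = 1 := esymmFun_zero f z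
    simpa using h1
  · have h0 := esymmFun_isZero f hi
    rw [IsZeroAtImInfty, ZeroAtFilter] at h0 ⊢
    have := h0.const_mul ((-1 : ℂ) ^ i)
    rw [mul_zero] at this
    convert this using 1
    ext z
    simp
  · simpa using sum_esymmFun_mul_pow f z

/-- **P2** in the exact form of the team skeleton. -/
theorem exists_monic_levelOne (N : ℕ) [NeZero N] (k : ℤ)
    (f : ModularForm (CongruenceSubgroup.Gamma0 N : Subgroup (GL (Fin 2) ℝ)) k) :
    ∃ (μ : ℕ) (c : (i : ℕ) → ModularForm 𝒮ℒ (i * k)), (∀ z, c 0 z = 1) ∧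
      ∀ z, ∑ i ∈ Finset.range (μ + 1), c i z * f z ^ (μ - i) = 0 := by
  obtain ⟨μ, c, h0, hrel⟩ := exists_monic_levelOne_gen f
  exact ⟨μ, fun i => ModularForm.mcast (mul_comm k i) (c i), h0, hrel⟩

/-- **P2, cusp version** in the exact form of the team skeleton. -/
theorem exists_monic_levelOne_cusp (N : ℕ) [NeZero N] (k : ℤ)
    (f : CuspForm (CongruenceSubgroup.Gamma0 N : Subgroup (GL (Fin 2) ℝ)) k) :
    ∃ (μ : ℕ) (c : (i : ℕ) → ModularForm 𝒮ℒ (i * k)), (∀ z, c 0 z = 1) ∧
      (∀ z, ∑ i ∈ Finset.range (μ + 1), c i z * f z ^ (μ - i) = 0) ∧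
      ∀ i, 1 ≤ i → IsZeroAtImInfty ⇑(c i) := by
  obtain ⟨μ, c, h0, hz, hrel⟩ := exists_monic_levelOne_cusp_gen f
  exact ⟨μ, fun i => ModularForm.mcast (mul_comm k i) (c i), h0, hrel, hz⟩

end

end Fermat.Agent.S23
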