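import Mathlib
import Fermat.Prelude.Def_FLTPrelim_Modularity
import Fermat.Prelude.Thm_CongruenceSubgroup_one_mem_strictPeriods_Gamma0

/-!
# q-expansion toolkit: the algebra of "nice" functions and the q-expansion algebra hom
-/

set_option autoImplicit false

open UpperHalfPlane ModularForm
open scoped MatrixGroups Manifold

namespace Fermat.Agent.S23

/-- The subalgebra of functions on `ℍ` that are `1`-periodic, holomorphic and bounded at `i∞`. -/
def qNice : Subalgebra ℂ (ℍ → ℂ) where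
  carrier := {f | Function.Periodic (f ∘ ofComplex) 1 ∧ MDiff f ∧ IsBoundedAtImInfty f}
  mul_mem' := by
    rintro f g ⟨hf1, hf2, hf3⟩ ⟨hg1, hg2, hg3⟩
    refine ⟨?_, hf2.mul hg2, hf3.mul hg3⟩
    intro x
    have h1 := hf1 x
    have h2 := hg1 x
    simp only [Function.comp_apply, Pi.mul_apply] at h1 h2 ⊢
    rw [h1, h2]
  add_mem' := by
    rintro f g ⟨hf1, hf2, hf3⟩ ⟨hg1, hg2, hg3⟩
    refine ⟨?_, hf2.add hg2, hf3.add hg3⟩
    intro x
    have h1 := hf1 x
    have h2 := hg1 x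
    simp only [Function.comp_apply, Pi.add_apply] at h1 h2 ⊢
    rw [h1, h2]
  algebraMap_mem' := by
    intro c
    refine ⟨fun x => rfl, mdifferentiable_const, ?_⟩
    exact Filter.const_boundedAtFilter _ c

theorem mem_qNice_iff (f : ℍ → ℂ) :
    f ∈ qNice ↔ Function.Periodic (f ∘ ofComplex) 1 ∧ MDiff f ∧ IsBoundedAtImInfty f := Iff.rfl

theorem qNice_analyticAt {f : ℍ → ℂ} (hf : f ∈ qNice) : AnalyticAt ℂ (cuspFunction 1 f) 0 :=
  analyticAt_cuspFunction_zero one_pos hf.1 hf.2.1 hf.2.2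

/-- The `q`-expansion (at period 1) as an algebra homomorphism on `qNice`. -/
noncomputable def qExpHom : qNice →ₐ[ℂ] PowerSeries ℂ where
  toFun f := qExpansion 1 (f : ℍ → ℂ)
  map_one' := qExpansion_one 1
  map_mul' f g := qExpansion_mul (qNice_analyticAt f.2) (qNice_analyticAt g.2)
  map_zero' := qExpansion_zero 1
  map_add' f g := qExpansion_add (qNice_analyticAt f.2) (qNice_analyticAt g.2)
  commutes' c := by
    have h1 : ((algebraMap ℂ qNice c : qNice) : ℍ → ℂ) = c • (1 : ℍ → ℂ) := by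
      ext z
      simp [Algebra.algebraMap_eq_smul_one]
    show qExpansion 1 ((algebraMap ℂ qNice c : qNice) : ℍ → ℂ) = _
    rw [h1, qExpansion_smul (qNice_analyticAt (one_mem qNice)), qExpansion_one,
      Algebra.algebraMap_eq_smul_one]

@[simp] theorem qExpHom_apply (f : qNice) : qExpHom f = qExpansion 1 (f : ℍ → ℂ) := rfl

theorem qExpHom_injective : Function.Injective qExpHom := by
  rw [injective_iff_map_eq_zero]
  intro f hf
  have := (qExpansion_eq_zero_iff one_pos f.2.1 f.2.2.1 f.2.2.2).mp hf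
  exact Subtype.ext this

/-- Two nice functions with the same `q`-expansion are equal. -/
theorem qNice_eq_of_qExpansion_eq {f g : ℍ → ℂ} (hf : f ∈ qNice) (hg : g ∈ qNice)
    (h : qExpansion 1 f = qExpansion 1 g) : f = g :=
  congrArg Subtype.val (qExpHom_injective (a₁ := ⟨f, hf⟩) (a₂ := ⟨g, hg⟩) h)

/-- Modular forms for a group having `1` as a strict period are nice. -/
theorem modularForm_mem_qNice {Γ : Subgroup (GL (Fin 2) ℝ)} {k : ℤ} {F : Type*} [FunLike F ℍ ℂ]
    [ModularFormClass F Γ k] (hΓ : (1 : ℝ) ∈ Γ.strictPeriods) (f : F) : (f : ℍ → ℂ) ∈ qNice := by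
  have : Fact (IsCusp OnePoint.infty Γ) := ⟨Γ.isCusp_of_mem_strictPeriods one_pos hΓ⟩
  exact ⟨SlashInvariantFormClass.periodic_comp_ofComplex f hΓ, ModularFormClass.holo f,
    ModularFormClass.bdd_at_infty f⟩

theorem levelOne_mem_qNice {k : ℤ} (f : ModularForm 𝒮ℒ k) : (f : ℍ → ℂ) ∈ qNice :=
  modularForm_mem_qNice one_mem_strictPeriods_SL f

theorem gamma0_mem_qNice {N : ℕ} {k : ℤ}
    (f : ModularForm (CongruenceSubgroup.Gamma0 N : Subgroup (GL (Fin 2) ℝ)) k) :
    (f : ℍ → ℂ) ∈ qNice :=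
  modularForm_mem_qNice (CongruenceSubgroup.one_mem_strictPeriods_Gamma0 N) f

theorem gamma0_cusp_mem_qNice {N : ℕ} {k : ℤ}
    (f : CuspForm (CongruenceSubgroup.Gamma0 N : Subgroup (GL (Fin 2) ℝ)) k) :
    (f : ℍ → ℂ) ∈ qNice :=
  modularForm_mem_qNice (CongruenceSubgroup.one_mem_strictPeriods_Gamma0 N) f

end Fermat.Agent.S23
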