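/-
S23 / P4 (analytic core): root bounds for monic relations and the division lemma
(a quotient of holomorphic functions that is integral over holomorphic functions is holomorphic).
-/
import Mathlib

set_option autoImplicit false

open Filter Topology

namespace Fermat.Agent.S23

/-- Root bound: a root of a monic polynomial is bounded by `1 +` the sum of the norms of the
other coefficients. -/
lemma norm_le_of_monic_rel {μ : ℕ} {a : ℕ → ℂ} {x : ℂ} (h0 : a 0 = 1)
    (h : ∑ i ∈ Finset.range (μ + 1), a i * x ^ (μ - i) = 0) :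
    ‖x‖ ≤ 1 + ∑ i ∈ Finset.range μ, ‖a (i + 1)‖ := by
  set M := ∑ i ∈ Finset.range μ, ‖a (i + 1)‖ with hM
  have hM0 : 0 ≤ M := Finset.sum_nonneg fun _ _ => norm_nonneg _
  rcases le_or_gt ‖x‖ 1 with hx | hx
  · linarith
  rw [Finset.sum_range_succ', h0] at h
  simp only [Nat.sub_zero, one_mul] at h
  have hxμ : x ^ μ = -∑ i ∈ Finset.range μ, a (i + 1) * x ^ (μ - (i + 1)) := by
    linear_combination h
  have hμ : μ ≠ 0 := by
    rintro rfl
    simp at hxμ
  have hbound : ‖x‖ ^ μ ≤ M * ‖x‖ ^ (μ - 1) := by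
    calc ‖x‖ ^ μ = ‖x ^ μ‖ := (norm_pow _ _).symm
      _ = ‖∑ i ∈ Finset.range μ, a (i + 1) * x ^ (μ - (i + 1))‖ := by rw [hxμ, norm_neg]
      _ ≤ ∑ i ∈ Finset.range μ, ‖a (i + 1) * x ^ (μ - (i + 1))‖ := norm_sum_le _ _
      _ ≤ ∑ i ∈ Finset.range μ, ‖a (i + 1)‖ * ‖x‖ ^ (μ - 1) := by
          refine Finset.sum_le_sum fun i _ => ?_
          rw [norm_mul, norm_pow]
          refine mul_le_mul_of_nonneg_left ?_ (norm_nonneg _)
          exact pow_le_pow_right₀ hx.le (by omega)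
      _ = M * ‖x‖ ^ (μ - 1) := by rw [hM, Finset.sum_mul]
  have hpos : 0 < ‖x‖ ^ (μ - 1) := pow_pos (by linarith) _
  have hx' : ‖x‖ ^ μ = ‖x‖ * ‖x‖ ^ (μ - 1) := by
    rw [← pow_succ', Nat.sub_add_cancel (Nat.pos_of_ne_zero hμ)]
  rw [hx'] at hbound
  have := le_of_mul_le_mul_right hbound hpos
  linarith

/-- Root bound, second form, used to show that roots tend to zero when the coefficients do. -/
lemma norm_pow_le_of_monic_rel {μ : ℕ} {a : ℕ → ℂ} {x : ℂ} (h0 : a 0 = 1)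
    (h : ∑ i ∈ Finset.range (μ + 1), a i * x ^ (μ - i) = 0) :
    ‖x‖ ^ μ ≤ (∑ i ∈ Finset.range μ, ‖a (i + 1)‖) *
      (1 + ∑ i ∈ Finset.range μ, ‖a (i + 1)‖) ^ (μ - 1) := by
  have hx := norm_le_of_monic_rel h0 h
  set M := ∑ i ∈ Finset.range μ, ‖a (i + 1)‖ with hM
  have hM0 : 0 ≤ M := Finset.sum_nonneg fun _ _ => norm_nonneg _
  rw [Finset.sum_range_succ', h0] at h
  simp only [Nat.sub_zero, one_mul] at h
  have hxμ : x ^ μ = -∑ i ∈ Finset.range μ, a (i + 1) * x ^ (μ - (i + 1)) := by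
    linear_combination h
  calc ‖x‖ ^ μ = ‖x ^ μ‖ := (norm_pow _ _).symm
    _ = ‖∑ i ∈ Finset.range μ, a (i + 1) * x ^ (μ - (i + 1))‖ := by rw [hxμ, norm_neg]
    _ ≤ ∑ i ∈ Finset.range μ, ‖a (i + 1) * x ^ (μ - (i + 1))‖ := norm_sum_le _ _
    _ ≤ ∑ i ∈ Finset.range μ, ‖a (i + 1)‖ * (1 + M) ^ (μ - 1) := by
        refine Finset.sum_le_sum fun i _ => ?_
        rw [norm_mul, norm_pow]
        refine mul_le_mul_of_nonneg_left ?_ (norm_nonneg _)
        calc ‖x‖ ^ (μ - (i + 1)) ≤ (1 + M) ^ (μ - (i + 1)) :=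
              pow_le_pow_left₀ (norm_nonneg _) hx _
          _ ≤ (1 + M) ^ (μ - 1) := pow_le_pow_right₀ (by linarith) (by omega)
    _ = M * (1 + M) ^ (μ - 1) := by rw [hM, Finset.sum_mul]

/-- **Division lemma.** Let `a, b` be holomorphic on an open set `U`, with the zeros of `a`
isolated, and assume `b / a` satisfies (after clearing denominators) a monic polynomial
relation with continuous coefficients. Then `b = a * G` with `G` holomorphic on `U`. -/
theorem exists_div_of_monic_rel {U : Set ℂ} (hU : IsOpen U) {a b : ℂ → ℂ} {μ : ℕ}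
    {c : ℕ → ℂ → ℂ} (ha : DifferentiableOn ℂ a U) (hb : DifferentiableOn ℂ b U)
    (hc : ∀ i, ContinuousOn (c i) U)
    (ha0 : ∀ z ∈ U, ∀ᶠ w in 𝓝[≠] z, a w ≠ 0)
    (hc0 : ∀ z ∈ U, c 0 z = 1)
    (hrel : ∀ z ∈ U, ∑ i ∈ Finset.range (μ + 1), c i z * a z ^ i * b z ^ (μ - i) = 0) :
    ∃ G : ℂ → ℂ, DifferentiableOn ℂ G U ∧ ∀ z ∈ U, a z * G z = b z := by
  classical
  set g : ℂ → ℂ := fun z => b z / a z with hg
  -- where `a ≠ 0`, the quotient satisfies the monic relation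
  have hgrel : ∀ z ∈ U, a z ≠ 0 → ∑ i ∈ Finset.range (μ + 1), c i z * g z ^ (μ - i) = 0 := by
    intro z hz haz
    have h := hrel z hz
    have h2 : ∑ i ∈ Finset.range (μ + 1), c i z * a z ^ i * b z ^ (μ - i)
        = a z ^ μ * ∑ i ∈ Finset.range (μ + 1), c i z * g z ^ (μ - i) := by
      rw [Finset.mul_sum]
      refine Finset.sum_congr rfl fun i hi => ?_
      have hi' : i ≤ μ := Nat.lt_succ_iff.mp (Finset.mem_range.mp hi)
      have h3 : a z ^ μ = a z ^ i * a z ^ (μ - i) := by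
        rw [← pow_add, Nat.add_sub_cancel' hi']
      simp only [hg, div_pow]
      rw [h3]
      field_simp
    rw [h2] at h
    exact (mul_eq_zero.mp h).resolve_left (pow_ne_zero _ haz)
  have hgdiff : ∀ z ∈ U, a z ≠ 0 → DifferentiableAt ℂ g z := fun z hz haz =>
    ((hb z hz).differentiableAt (hU.mem_nhds hz)).div
      ((ha z hz).differentiableAt (hU.mem_nhds hz)) haz
  -- the candidate quotient
  set G : ℂ → ℂ := fun z => limUnder (𝓝[≠] z) g with hG
  have hGg : ∀ z ∈ U, a z ≠ 0 → G z = g z := by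
    intro z hz haz
    exact ((hgdiff z hz haz).continuousAt.tendsto.mono_left nhdsWithin_le_nhds).limUnder_eq
  have hbound : ∀ z ∈ U, a z ≠ 0 → ‖g z‖ ≤ 1 + ∑ i ∈ Finset.range μ, ‖c (i + 1) z‖ :=
    fun z hz haz => norm_le_of_monic_rel (a := fun i => c i z) (hc0 z hz) (hgrel z hz haz)
  have hGdiff : ∀ z₀ ∈ U, DifferentiableAt ℂ G z₀ := by
    intro z₀ hz₀
    have e1 : ∀ᶠ w in 𝓝 z₀, w ∈ U := hU.mem_nhds hz₀
    have e2 : ∀ᶠ w in 𝓝 z₀, w ≠ z₀ → a w ≠ 0 := by
      have := ha0 z₀ hz₀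
      rwa [eventually_nhdsWithin_iff] at this
    have e3 : ∀ᶠ w in 𝓝 z₀, ∀ i ∈ Finset.range μ, ‖c (i + 1) w‖ ≤ ‖c (i + 1) z₀‖ + 1 := by
      rw [Filter.eventually_all_finset]
      intro i _
      have hcont : ContinuousAt (c (i + 1)) z₀ := (hc (i + 1)).continuousAt (hU.mem_nhds hz₀)
      have : ∀ᶠ w in 𝓝 z₀, ‖c (i + 1) w‖ < ‖c (i + 1) z₀‖ + 1 :=
        hcont.norm.tendsto.eventually (gt_mem_nhds (by linarith))
      exact this.mono fun w hw => hw.le
    obtain ⟨ε, hε, hball⟩ := Metric.eventually_nhds_iff_ball.mp (e1.and (e2.and e3))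
    set s := Metric.ball z₀ ε with hs
    have hs_nhds : s ∈ 𝓝 z₀ := Metric.ball_mem_nhds z₀ hε
    have hd : DifferentiableOn ℂ g (s \ {z₀}) := by
      intro w hw
      have hw' := hball w hw.1
      exact (hgdiff w hw'.1 (hw'.2.1 hw.2)).differentiableWithinAt
    have hbdd : BddAbove (norm ∘ g '' (s \ {z₀})) := by
      refine ⟨1 + ∑ i ∈ Finset.range μ, (‖c (i + 1) z₀‖ + 1), ?_⟩
      rintro _ ⟨w, hw, rfl⟩
      have hw' := hball w hw.1
      calc ‖g w‖ ≤ 1 + ∑ i ∈ Finset.range μ, ‖c (i + 1) w‖ := hbound w hw'.1 (hw'.2.1 hw.2)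
        _ ≤ 1 + ∑ i ∈ Finset.range μ, (‖c (i + 1) z₀‖ + 1) := by
            gcongr with i hi
            exact hw'.2.2 i hi
    have hR := Complex.differentiableOn_update_limUnder_of_bddAbove hs_nhds hd hbdd
    have heq : G =ᶠ[𝓝 z₀] Function.update g z₀ (limUnder (𝓝[≠] z₀) g) := by
      filter_upwards [hs_nhds] with w hw
      by_cases hwz : w = z₀
      · subst hwz
        simp [hG]
      · have hw' := hball w hw
        rw [Function.update_of_ne hwz]
        exact hGg w hw'.1 (hw'.2.1 hwz)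
    exact ((hR z₀ (Metric.mem_ball_self hε)).differentiableAt hs_nhds).congr_of_eventuallyEq heq
  refine ⟨G, fun z hz => (hGdiff z hz).differentiableWithinAt, fun z hz => ?_⟩
  by_cases haz : a z = 0
  · have h := hrel z hz
    have hμ : μ ≠ 0 := by
      rintro rfl
      simp [hc0 z hz] at h
    rw [Finset.sum_range_succ', hc0 z hz] at h
    have h4 : ∑ i ∈ Finset.range μ, c (i + 1) z * a z ^ (i + 1) * b z ^ (μ - (i + 1)) = 0 :=
      Finset.sum_eq_zero fun i _ => by rw [haz]; simp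
    rw [h4] at h
    simp only [pow_zero, mul_one, Nat.sub_zero, one_mul, zero_add] at h
    rw [haz, zero_mul, pow_eq_zero_iff hμ |>.mp h]
  · rw [hGg z hz haz, hg]
    field_simp

end Fermat.Agent.S23
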