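/-
S23 / P4 (modular core): from a "numerator/denominator" presentation `A * F = B` together with a
monic relation with level one coefficients, build a genuine modular form / cusp form `F`.
-/
import Mathlib
import Fermat.Agent.S23.Division

set_option autoImplicit false

open UpperHalfPlane ModularForm Filter
open scoped MatrixGroups ModularForm Manifold Topology

namespace Fermat.Agent.S23

/-- Division lemma on the upper half plane. -/
theorem exists_mdiff_div {A B : ℍ → ℂ} {μ : ℕ} {c : ℕ → ℍ → ℂ} (hA : MDiff A) (hB : MDiff B)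
    (hc : ∀ i, MDiff (c i)) (hA0 : A ≠ 0) (hc0 : ∀ z, c 0 z = 1)
    (hrel : ∀ z, ∑ i ∈ Finset.range (μ + 1), c i z * A z ^ i * B z ^ (μ - i) = 0) :
    ∃ F : ℍ → ℂ, MDiff F ∧ ∀ z, A z * F z = B z := by
  set U : Set ℂ := {z | 0 < z.im} with hU
  have hUo : IsOpen U := isOpen_lt continuous_const Complex.continuous_im
  have hUc : IsPreconnected U := (convex_halfSpace_im_gt 0).isPreconnected
  have ha : DifferentiableOn ℂ (A ∘ ofComplex) U := UpperHalfPlane.mdifferentiable_iff.mp hA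
  have hb : DifferentiableOn ℂ (B ∘ ofComplex) U := UpperHalfPlane.mdifferentiable_iff.mp hB
  have hcc : ∀ i, ContinuousOn (c i ∘ ofComplex) U :=
    fun i => (UpperHalfPlane.mdifferentiable_iff.mp (hc i)).continuousOn
  have hof : ∀ z (hz : z ∈ U), ofComplex z = ⟨z, hz⟩ := fun z hz => ofComplex_apply_of_im_pos hz
  have ha0 : ∀ z ∈ U, ∀ᶠ w in 𝓝[≠] z, (A ∘ ofComplex) w ≠ 0 := by
    intro z hz
    by_contra hcon
    rw [Filter.not_eventually] at hcon
    have hfreq : ∃ᶠ w in 𝓝[≠] z, (A ∘ ofComplex) w = 0 := hcon.mono fun w hw => by simpa using hw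
    have hzero := (ha.analyticOnNhd hUo).eqOn_zero_of_preconnected_of_frequently_eq_zero hUc hz hfreq
    apply hA0
    ext τ
    have := hzero (show (τ : ℂ) ∈ U from τ.im_pos)
    simpa using this
  obtain ⟨G, hG, hGeq⟩ := exists_div_of_monic_rel (μ := μ) (c := fun i => c i ∘ ofComplex) hUo ha hb
    hcc ha0 (fun z _ => hc0 _) (fun z _ => hrel _)
  refine ⟨fun τ => G τ, ?_, fun τ => ?_⟩
  · rw [UpperHalfPlane.mdifferentiable_iff]
    refine hG.congr fun z hz => ?_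
    simp [hof z hz]
  · have := hGeq τ τ.im_pos
    simpa using this

/-- The monic relation for the quotient. -/
theorem rel_of_mul_eq {A B F : ℍ → ℂ} {μ : ℕ} {c : ℕ → ℍ → ℂ} (hA : MDiff A) (hF : MDiff F)
    (hc : ∀ i, MDiff (c i)) (hA0 : A ≠ 0) (hAF : ∀ z, A z * F z = B z)
    (hrel : ∀ z, ∑ i ∈ Finset.range (μ + 1), c i z * A z ^ i * B z ^ (μ - i) = 0) (z : ℍ) :
    ∑ i ∈ Finset.range (μ + 1), c i z * F z ^ (μ - i) = 0 := by
  set S : ℍ → ℂ := fun z => ∑ i ∈ Finset.range (μ + 1), c i z * F z ^ (μ - i) with hS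
  have hSd : MDiff S := by
    have : S = ∑ i ∈ Finset.range (μ + 1), c i * F ^ (μ - i) := by
      ext z; simp [hS]
    rw [this]
    exact .sum fun i _ => (hc i).mul (hF.pow _)
  have hmul : A ^ μ * S = 0 := by
    ext z
    simp only [Pi.mul_apply, Pi.pow_apply, Pi.zero_apply, hS, Finset.mul_sum]
    rw [← hrel z]
    refine Finset.sum_congr rfl fun i hi => ?_
    have hi' : i ≤ μ := Nat.lt_succ_iff.mp (Finset.mem_range.mp hi)
    have h3 : A z ^ μ = A z ^ i * A z ^ (μ - i) := by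
      rw [← pow_add, Nat.add_sub_cancel' hi']
    rw [h3, ← hAF z, mul_pow]
    ring
  rcases (UpperHalfPlane.mul_eq_zero_iff (hA.pow μ) hSd).mp hmul with h | h
  · exfalso
    apply hA0
    ext z
    have h' : A z ^ μ = 0 := congrFun h z
    exact (by simpa using h' : A z = 0 ∧ _).1
  · exact congrFun h z

/-- Slash invariance of the quotient. -/
theorem slash_eq_of_mul_eq {A B F : ℍ → ℂ} {k w : ℤ} (hA : MDiff A) (hF : MDiff F) (hA0 : A ≠ 0)
    (hAF : ∀ z, A z * F z = B z) {γ : GL (Fin 2) ℝ} (hdet : |γ.det.val| = 1)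
    (hAγ : A ∣[w] γ = A) (hBγ : B ∣[w + k] γ = B) : F ∣[k] γ = F := by
  have hAF' : A * F = B := funext hAF
  have h1 : A * (F ∣[k] γ) = B := by
    have := ModularForm.mul_slash w k γ A F
    rw [hAF', hBγ, hdet, one_smul, hAγ] at this
    exact this.symm
  have h2 : A * (F ∣[k] γ - F) = 0 := by
    rw [mul_sub, h1, hAF', sub_self]
  rcases (UpperHalfPlane.mul_eq_zero_iff hA ((hF.slash k γ).sub hF)).mp h2 with h | h
  · exact absurd h hA0
  · exact sub_eq_zero.mp h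

/-- The monic relation is inherited by `SL(2,ℤ)`-translates. -/
theorem rel_slash {F : ℍ → ℂ} {k : ℤ} {μ : ℕ} {c : ℕ → ℍ → ℂ} (γ : SL(2, ℤ))
    (hcγ : ∀ i : ℕ, c i ∣[k * (i : ℤ)] γ = c i)
    (hrel : ∀ z, ∑ i ∈ Finset.range (μ + 1), c i z * F z ^ (μ - i) = 0) (z : ℍ) :
    ∑ i ∈ Finset.range (μ + 1), c i z * (F ∣[k] γ) z ^ (μ - i) = 0 := by
  have hd : denom γ z ≠ 0 := denom_ne_zero γ z
  have key : ∑ i ∈ Finset.range (μ + 1), c i z * (F ∣[k] γ) z ^ (μ - i)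
      = denom γ z ^ (-(k * μ)) * ∑ i ∈ Finset.range (μ + 1), c i (γ • z) * F (γ • z) ^ (μ - i) := by
    rw [Finset.mul_sum]
    refine Finset.sum_congr rfl fun i hi => ?_
    have hi' : i ≤ μ := Nat.lt_succ_iff.mp (Finset.mem_range.mp hi)
    have hci : c i z = c i (γ • z) * denom γ z ^ (-(k * i)) := by
      conv_lhs => rw [← hcγ i]
      rw [ModularForm.SL_slash_apply]
    rw [hci, ModularForm.SL_slash_apply, mul_pow, ← zpow_natCast (denom γ z ^ (-k)), ← zpow_mul]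
    have hexp : denom γ z ^ (-(k * μ)) = denom γ z ^ (-(k * i)) * denom γ z ^ (-k * ((μ - i : ℕ) : ℤ)) := by
      rw [← zpow_add₀ hd]
      congr 1
      push_cast [hi']
      ring
    rw [hexp]
    ring
  rw [key, hrel (γ • z), mul_zero]

/-- A function satisfying a monic relation with coefficients bounded at `i∞` is bounded
at `i∞`. -/
theorem isBoundedAtImInfty_of_rel {G : ℍ → ℂ} {μ : ℕ} {c : ℕ → ℍ → ℂ} (hc0 : ∀ z, c 0 z = 1)
    (hcb : ∀ i, IsBoundedAtImInfty (c i))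
    (hrel : ∀ z, ∑ i ∈ Finset.range (μ + 1), c i z * G z ^ (μ - i) = 0) :
    IsBoundedAtImInfty G := by
  rw [IsBoundedAtImInfty, BoundedAtFilter]
  set h : ℍ → ℝ := fun z => 1 + ∑ i ∈ Finset.range μ, ‖c (i + 1) z‖ with hh
  have h1 : G =O[atImInfty] h := by
    refine Asymptotics.isBigO_of_le _ fun z => ?_
    have := norm_le_of_monic_rel (a := fun i => c i z) (hc0 z) (hrel z)
    exact this.trans (Real.le_norm_self (h z))
  have h2a : (fun z => ∑ i ∈ Finset.range μ, ‖c (i + 1) z‖) =O[atImInfty] (1 : ℍ → ℝ) := by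
    have := Asymptotics.IsBigO.sum (s := Finset.range μ) (A := fun i z => ‖c (i + 1) z‖)
      (g := (1 : ℍ → ℝ)) (l := atImInfty) fun i _ => (hcb (i + 1)).norm_left
    refine this.congr_left fun z => ?_
    simp [Finset.sum_apply]
  have h2 : h =O[atImInfty] (1 : ℍ → ℝ) :=
    ((Asymptotics.isBigO_refl (1 : ℍ → ℝ) atImInfty).add h2a).congr_left fun z => by simp [hh]
  exact h1.trans h2

/-- A function satisfying a monic relation whose non-leading coefficients vanish at `i∞`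
vanishes at `i∞`. -/
theorem isZeroAtImInfty_of_rel {G : ℍ → ℂ} {μ : ℕ} {c : ℕ → ℍ → ℂ} (hc0 : ∀ z, c 0 z = 1)
    (hcz : ∀ i, 1 ≤ i → IsZeroAtImInfty (c i))
    (hrel : ∀ z, ∑ i ∈ Finset.range (μ + 1), c i z * G z ^ (μ - i) = 0) :
    IsZeroAtImInfty G := by
  rw [IsZeroAtImInfty, ZeroAtFilter]
  rcases μ.eq_zero_or_pos with rfl | hμ
  · exfalso
    have := hrel UpperHalfPlane.I
    simp [hc0] at this
  set M : ℍ → ℝ := fun z => ∑ i ∈ Finset.range μ, ‖c (i + 1) z‖ with hM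
  have hMt : Tendsto M atImInfty (𝓝 0) := by
    have : Tendsto M atImInfty (𝓝 (∑ _i ∈ Finset.range μ, (0 : ℝ))) := by
      refine tendsto_finsetSum _ fun i _ => ?_
      have := hcz (i + 1) (by omega)
      rw [IsZeroAtImInfty, ZeroAtFilter] at this
      simpa using this.norm
    simpa using this
  have hbt : Tendsto (fun z => M z * (1 + M z) ^ (μ - 1)) atImInfty (𝓝 0) := by
    have h1 : Tendsto (fun z => 1 + M z) atImInfty (𝓝 (1 + 0)) :=
      (tendsto_const_nhds (x := (1 : ℝ))).add hMt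
    have := hMt.mul (h1.pow (μ - 1))
    simpa using this
  have hpow : Tendsto (fun z => ‖G z‖ ^ μ) atImInfty (𝓝 0) := by
    refine squeeze_zero (fun z => by positivity) (fun z => ?_) hbt
    exact norm_pow_le_of_monic_rel (a := fun i => c i z) (hc0 z) (hrel z)
  have hroot : Tendsto (fun z => (‖G z‖ ^ μ) ^ ((μ : ℝ)⁻¹)) atImInfty (𝓝 0) := by
    have := hpow.rpow_const (p := (μ : ℝ)⁻¹) (Or.inr (by positivity))
    rwa [Real.zero_rpow (by positivity)] at this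
  rw [tendsto_zero_iff_norm_tendsto_zero]
  refine hroot.congr fun z => ?_
  exact Real.pow_rpow_inv_natCast (norm_nonneg _) hμ.ne'

variable {Γ : Subgroup (GL (Fin 2) ℝ)}

/-- Common part of the two main constructions. -/
theorem exists_quotient_of_rel (hΓ : Γ ≤ 𝒮ℒ) {k w : ℤ} {μ : ℕ}
    (A : ModularForm 𝒮ℒ w) (hA : (A : ℍ → ℂ) ≠ 0) {B : ℍ → ℂ} (hB : MDiff B)
    (hBinv : ∀ γ ∈ Γ, B ∣[w + k] γ = B) (c : (i : ℕ) → ModularForm 𝒮ℒ (k * i))
    (hc0 : ∀ z, c 0 z = 1)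
    (hrel : ∀ z, ∑ i ∈ Finset.range (μ + 1), c i z * A z ^ i * B z ^ (μ - i) = 0) :
    ∃ F : ℍ → ℂ, MDiff F ∧ (∀ z, A z * F z = B z) ∧ (∀ γ ∈ Γ, F ∣[k] γ = F) ∧
      ∀ (γ : SL(2, ℤ)) (z : ℍ), ∑ i ∈ Finset.range (μ + 1), c i z * (F ∣[k] γ) z ^ (μ - i) = 0 := by
  obtain ⟨F, hF, hAF⟩ := exists_mdiff_div (c := fun i => c i) A.holo' hB (fun i => (c i).holo') hA
    hc0 hrel
  refine ⟨F, hF, hAF, fun γ hγ => ?_, fun γ z => ?_⟩
  · exact slash_eq_of_mul_eq A.holo' hF hA hAF (Subgroup.HasDetPlusMinusOne.abs_det (hΓ hγ))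
      (A.slash_action_eq' γ (hΓ hγ)) (hBinv γ hγ)
  · refine rel_slash (c := fun i => c i) γ (fun i => ?_) (fun z => ?_) z
    · exact (c i).slash_action_eq' _ ⟨γ, rfl⟩
    · exact rel_of_mul_eq (c := fun i => c i) A.holo' hF (fun i => (c i).holo') hA hAF hrel z

/-- **P4 core, modular forms.** -/
theorem exists_modularForm_of_rel [Γ.IsArithmetic] (hΓ : Γ ≤ 𝒮ℒ) {k w : ℤ} {μ : ℕ}
    (A : ModularForm 𝒮ℒ w) (hA : (A : ℍ → ℂ) ≠ 0) {B : ℍ → ℂ} (hB : MDiff B)
    (hBinv : ∀ γ ∈ Γ, B ∣[w + k] γ = B) (c : (i : ℕ) → ModularForm 𝒮ℒ (k * i))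
    (hc0 : ∀ z, c 0 z = 1)
    (hrel : ∀ z, ∑ i ∈ Finset.range (μ + 1), c i z * A z ^ i * B z ^ (μ - i) = 0) :
    ∃ F : ModularForm Γ k, ∀ z, A z * F z = B z := by
  obtain ⟨F, hF, hAF, hinv, hrelγ⟩ := exists_quotient_of_rel hΓ A hA hB hBinv c hc0 hrel
  refine ⟨{ toFun := F, slash_action_eq' := hinv, holo' := hF, bdd_at_cusps' := ?_ }, hAF⟩
  intro cusp hcusp
  rw [Subgroup.IsArithmetic.isCusp_iff_isCusp_SL2Z] at hcusp
  rw [OnePoint.isBoundedAt_iff_forall_SL2Z hcusp]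
  intro γ _
  exact isBoundedAtImInfty_of_rel (c := fun i => c i) hc0
    (fun i => ModularFormClass.bdd_at_infty (c i)) (hrelγ γ)

/-- **P4 core, cusp forms.** -/
theorem exists_cuspForm_of_rel [Γ.IsArithmetic] (hΓ : Γ ≤ 𝒮ℒ) {k w : ℤ} {μ : ℕ}
    (A : ModularForm 𝒮ℒ w) (hA : (A : ℍ → ℂ) ≠ 0) {B : ℍ → ℂ} (hB : MDiff B)
    (hBinv : ∀ γ ∈ Γ, B ∣[w + k] γ = B) (c : (i : ℕ) → ModularForm 𝒮ℒ (k * i))
    (hc0 : ∀ z, c 0 z = 1) (hcz : ∀ i, 1 ≤ i → IsZeroAtImInfty (c i))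
    (hrel : ∀ z, ∑ i ∈ Finset.range (μ + 1), c i z * A z ^ i * B z ^ (μ - i) = 0) :
    ∃ F : CuspForm Γ k, ∀ z, A z * F z = B z := by
  obtain ⟨F, hF, hAF, hinv, hrelγ⟩ := exists_quotient_of_rel hΓ A hA hB hBinv c hc0 hrel
  refine ⟨{ toFun := F, slash_action_eq' := hinv, holo' := hF, zero_at_cusps' := ?_ }, hAF⟩
  intro cusp hcusp
  rw [Subgroup.IsArithmetic.isCusp_iff_isCusp_SL2Z] at hcusp
  rw [OnePoint.isZeroAt_iff_forall_SL2Z hcusp]
  intro γ _
  exact isZeroAtImInfty_of_rel (c := fun i => c i) hc0 hcz (hrelγ γ)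

end Fermat.Agent.S23
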