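/-
S23 / P4: the transfer theorem.  Given the Cramer presentation `r * f = ∑ r_j t^j` and the monic
relation of `f` over level one forms, every ring endomorphism `σ` of `ℂ` maps the `q`-expansion
of `f` to the `q`-expansion of a modular form of the same weight and level.
-/
import Mathlib
import Fermat.Agent.S23.Defs
import Fermat.Agent.S23.LevelOne
import Fermat.Agent.S23.QExp
import Fermat.Agent.S23.Esymm
import Fermat.Agent.S23.Core
import Fermat.Agent.S23.T
import Fermat.Agent.S23.Cramer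

set_option autoImplicit false

open UpperHalfPlane ModularForm Filter
open scoped MatrixGroups ModularForm Manifold Topology

namespace Fermat.Agent.S23

/-- Powers of a slash-invariant function are slash-invariant. -/
theorem transfer_pow_slash {f : ℍ → ℂ} {k : ℤ} {γ : GL (Fin 2) ℝ} (hdet : |γ.det.val| = 1)
    (hf : f ∣[k] γ = f) (j : ℕ) : (f ^ j) ∣[k * j] γ = f ^ j := by
  have := ModularForm.prod_slash (k := k) (g := γ) (f := fun _ : ℕ => f) (s := Finset.range j)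
  simp only [Finset.prod_const, Finset.card_range, hf, hdet, one_zpow, one_smul] at this
  exact this

theorem transfer_qexp_mul {f g : ℍ → ℂ} (hf : f ∈ qNice) (hg : g ∈ qNice) :
    qExpansion 1 (f * g) = qExpansion 1 f * qExpansion 1 g :=
  qExpansion_mul (qNice_analyticAt hf) (qNice_analyticAt hg)

theorem transfer_qexp_pow {f : ℍ → ℂ} (hf : f ∈ qNice) (n : ℕ) :
    qExpansion 1 (f ^ n) = qExpansion 1 f ^ n := by
  induction n with
  | zero => simpa using qExpansion_one 1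
  | succ n ih => rw [pow_succ, pow_succ, transfer_qexp_mul (pow_mem hf n) hf, ih]

theorem transfer_qexp_sum {ι : Type*} (s : Finset ι) (F : ι → ℍ → ℂ) (hF : ∀ i ∈ s, F i ∈ qNice) :
    qExpansion 1 (∑ i ∈ s, F i) = ∑ i ∈ s, qExpansion 1 (F i) := by
  classical
  induction s using Finset.induction_on with
  | empty => simpa using qExpansion_zero 1
  | insert a s ha ih =>
    have hs : ∑ i ∈ s, F i ∈ qNice :=
      Subalgebra.sum_mem _ fun i hi => hF i (Finset.mem_insert_of_mem hi)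
    rw [Finset.sum_insert ha, Finset.sum_insert ha,
      ← ih fun i hi => hF i (Finset.mem_insert_of_mem hi)]
    exact qExpansion_add (qNice_analyticAt (hF a (Finset.mem_insert_self a s)))
      (qNice_analyticAt hs)

theorem transfer_map_injective (σ : ℂ →+* ℂ) {p : PowerSeries ℂ} (h : p.map σ = 0) : p = 0 := by
  ext n
  have := congrArg (PowerSeries.coeff n) h
  simpa using this

variable {Γ : Subgroup (GL (Fin 2) ℝ)}

/-- The data produced by conjugating a Cramer presentation and a monic relation. -/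
theorem transfer_data (hΓ : Γ ≤ 𝒮ℒ) (h1 : (1 : ℝ) ∈ Γ.strictPeriods) (σ : ℂ →+* ℂ)
    (t : ModularForm Γ 4) (ht : (qExpansion 1 t).map σ = qExpansion 1 t)
    {k : ℤ} (f : ℍ → ℂ) (hf : f ∈ qNice)
    (μ₁ : ℕ) (w : ℤ) (r : ModularForm 𝒮ℒ w) (rj : (j : ℕ) → ModularForm 𝒮ℒ (w + k - 4 * j))
    (hr : r ≠ 0) (hcr : ∀ z, r z * f z = ∑ j ∈ Finset.range μ₁, rj j z * t z ^ j)
    (μ : ℕ) (c : (i : ℕ) → ModularForm 𝒮ℒ (k * i)) (hc0 : ∀ z, c 0 z = 1)
    (hrel : ∀ z, ∑ i ∈ Finset.range (μ + 1), c i z * f z ^ (μ - i) = 0) :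
    ∃ (A : ModularForm 𝒮ℒ w) (B : ℍ → ℂ) (c' : (i : ℕ) → ModularForm 𝒮ℒ (k * i)),
      (A : ℍ → ℂ) ≠ 0 ∧ B ∈ qNice ∧ (∀ γ ∈ Γ, B ∣[w + k] γ = B) ∧ (∀ z, c' 0 z = 1) ∧
      (∀ i, qExpansion 1 (c' i) = (qExpansion 1 (c i)).map σ) ∧
      (∀ z, ∑ i ∈ Finset.range (μ + 1), c' i z * A z ^ i * B z ^ (μ - i) = 0) ∧
      qExpansion 1 B = qExpansion 1 A * (qExpansion 1 f).map σ := by
  -- conjugate all level one data
  obtain ⟨A, hA⟩ := levelOne_conj σ r
  choose rj' hrj' using fun j => levelOne_conj σ (rj j)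
  choose c' hc' using fun i => levelOne_conj σ (c i)
  set B : ℍ → ℂ := ∑ j ∈ Finset.range μ₁, (rj' j : ℍ → ℂ) * (t : ℍ → ℂ) ^ j with hB
  have htN : (t : ℍ → ℂ) ∈ qNice := modularForm_mem_qNice h1 t
  have hBterm : ∀ j ∈ Finset.range μ₁, (rj' j : ℍ → ℂ) * (t : ℍ → ℂ) ^ j ∈ qNice :=
    fun j _ => mul_mem (levelOne_mem_qNice _) (pow_mem htN j)
  have hBN : B ∈ qNice := Subalgebra.sum_mem _ hBterm
  -- q-expansion of the Cramer identity
  have hterm : ∀ j ∈ Finset.range μ₁, (rj j : ℍ → ℂ) * (t : ℍ → ℂ) ^ j ∈ qNice :=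
    fun j _ => mul_mem (levelOne_mem_qNice _) (pow_mem htN j)
  have hcrf : (r : ℍ → ℂ) * f = ∑ j ∈ Finset.range μ₁, (rj j : ℍ → ℂ) * (t : ℍ → ℂ) ^ j := by
    ext z
    simp [hcr z, Finset.sum_apply]
  have E1 : qExpansion 1 r * qExpansion 1 f
      = ∑ j ∈ Finset.range μ₁, qExpansion 1 (rj j) * qExpansion 1 t ^ j := by
    rw [← transfer_qexp_mul (levelOne_mem_qNice r) hf, hcrf, transfer_qexp_sum _ _ hterm]
    refine Finset.sum_congr rfl fun j _ => ?_
    rw [transfer_qexp_mul (levelOne_mem_qNice _) (pow_mem htN j), transfer_qexp_pow htN]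
  have EB : qExpansion 1 B = qExpansion 1 A * (qExpansion 1 f).map σ := by
    rw [hB, transfer_qexp_sum _ _ hBterm, hA, ← map_mul, E1, map_sum]
    refine Finset.sum_congr rfl fun j _ => ?_
    rw [transfer_qexp_mul (levelOne_mem_qNice _) (pow_mem htN j), transfer_qexp_pow htN, hrj',
      map_mul, map_pow, ht]
  have hA0 : (A : ℍ → ℂ) ≠ 0 := by
    intro h
    apply hr
    have h0 : qExpansion 1 (A : ℍ → ℂ) = 0 := by rw [h]; exact qExpansion_zero 1
    rw [hA] at h0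
    have h2 := transfer_map_injective σ h0
    have h3 : (r : ℍ → ℂ) = 0 :=
      qNice_eq_of_qExpansion_eq (levelOne_mem_qNice r) (zero_mem _) (by rw [h2]; exact (qExpansion_zero 1).symm)
    exact DFunLike.coe_injective h3
  have hc'0 : ∀ z, c' 0 z = 1 := by
    have h1' : (c 0 : ℍ → ℂ) = 1 := funext hc0
    have h2 : qExpansion 1 (c' 0 : ℍ → ℂ) = qExpansion 1 (1 : ℍ → ℂ) := by
      rw [hc' 0, h1', qExpansion_one, map_one]
    have h3 := qNice_eq_of_qExpansion_eq (levelOne_mem_qNice (c' 0)) (one_mem _) h2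
    intro z
    exact congrFun h3 z
  have hBinv : ∀ γ ∈ Γ, B ∣[w + k] γ = B := by
    intro γ hγ
    have hdet : |γ.det.val| = 1 := Subgroup.HasDetPlusMinusOne.abs_det (hΓ hγ)
    rw [hB, SlashAction.sum_slash]
    refine Finset.sum_congr rfl fun j _ => ?_
    have key := ModularForm.mul_slash (w + k - 4 * (j : ℤ)) (4 * j) γ (rj' j : ℍ → ℂ)
      ((t : ℍ → ℂ) ^ j)
    have hw : (w + k - 4 * (j : ℤ)) + 4 * j = w + k := by ring
    rw [hw] at key
    have htγ : (t : ℍ → ℂ) ∣[(4 : ℤ)] γ = t := t.slash_action_eq' γ hγ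
    have hrγ : (rj' j : ℍ → ℂ) ∣[w + k - 4 * (j : ℤ)] γ = rj' j :=
      (rj' j).slash_action_eq' γ (hΓ hγ)
    rw [key, hdet, one_smul, transfer_pow_slash hdet htγ j, hrγ]
  -- the conjugated monic relation
  have hrel' : ∀ z, ∑ i ∈ Finset.range (μ + 1), c' i z * A z ^ i * B z ^ (μ - i) = 0 := by
    set H : ℍ → ℂ := ∑ i ∈ Finset.range (μ + 1), (c' i : ℍ → ℂ) * (A : ℍ → ℂ) ^ i * B ^ (μ - i)
      with hH
    have hHterm : ∀ i ∈ Finset.range (μ + 1),
        (c' i : ℍ → ℂ) * (A : ℍ → ℂ) ^ i * B ^ (μ - i) ∈ qNice :=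
      fun i _ => mul_mem (mul_mem (levelOne_mem_qNice _) (pow_mem (levelOne_mem_qNice _) i))
        (pow_mem hBN _)
    -- the unconjugated relation, multiplied out
    set H₀ : ℍ → ℂ := ∑ i ∈ Finset.range (μ + 1),
      (c i : ℍ → ℂ) * (r : ℍ → ℂ) ^ i * ((r : ℍ → ℂ) * f) ^ (μ - i) with hH₀
    have hH₀term : ∀ i ∈ Finset.range (μ + 1),
        (c i : ℍ → ℂ) * (r : ℍ → ℂ) ^ i * ((r : ℍ → ℂ) * f) ^ (μ - i) ∈ qNice :=
      fun i _ => mul_mem (mul_mem (levelOne_mem_qNice _) (pow_mem (levelOne_mem_qNice _) i))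
        (pow_mem (mul_mem (levelOne_mem_qNice _) hf) _)
    have hH₀zero : H₀ = 0 := by
      ext z
      simp only [hH₀, Finset.sum_apply, Pi.mul_apply, Pi.pow_apply, Pi.zero_apply]
      have : ∑ i ∈ Finset.range (μ + 1), c i z * r z ^ i * (r z * f z) ^ (μ - i)
          = r z ^ μ * ∑ i ∈ Finset.range (μ + 1), c i z * f z ^ (μ - i) := by
        rw [Finset.mul_sum]
        refine Finset.sum_congr rfl fun i hi => ?_
        have hi' : i ≤ μ := Nat.lt_succ_iff.mp (Finset.mem_range.mp hi)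
        have h3 : r z ^ μ = r z ^ i * r z ^ (μ - i) := by
          rw [← pow_add, Nat.add_sub_cancel' hi']
        rw [h3, mul_pow]
        ring
      rw [this, hrel z, mul_zero]
    have hqH : qExpansion 1 H = (qExpansion 1 H₀).map σ := by
      rw [hH, hH₀, transfer_qexp_sum _ _ hHterm, transfer_qexp_sum _ _ hH₀term, map_sum]
      refine Finset.sum_congr rfl fun i _ => ?_
      rw [transfer_qexp_mul (mul_mem (levelOne_mem_qNice _) (pow_mem (levelOne_mem_qNice _) i))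
          (pow_mem hBN _),
        transfer_qexp_mul (levelOne_mem_qNice _) (pow_mem (levelOne_mem_qNice _) i),
        transfer_qexp_pow (levelOne_mem_qNice _), transfer_qexp_pow hBN, EB, hc' i, hA,
        transfer_qexp_mul (mul_mem (levelOne_mem_qNice _) (pow_mem (levelOne_mem_qNice _) i))
          (pow_mem (mul_mem (levelOne_mem_qNice _) hf) _),
        transfer_qexp_mul (levelOne_mem_qNice _) (pow_mem (levelOne_mem_qNice _) i),
        transfer_qexp_pow (levelOne_mem_qNice _), transfer_qexp_pow (mul_mem (levelOne_mem_qNice _) hf),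
        transfer_qexp_mul (levelOne_mem_qNice _) hf]
      simp only [map_mul, map_pow]
    have hHzero : H = 0 := by
      refine qNice_eq_of_qExpansion_eq (Subalgebra.sum_mem _ hHterm) (zero_mem _) ?_
      rw [hqH, hH₀zero, qExpansion_zero, map_zero]
    intro z
    have := congrFun hHzero z
    simpa [hH, Finset.sum_apply] using this
  exact ⟨A, B, c', hA0, hBN, hBinv, hc'0, hc', hrel', EB⟩

theorem transfer_qexp_ne_zero {w : ℤ} {A : ModularForm 𝒮ℒ w} (hA0 : (A : ℍ → ℂ) ≠ 0) :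
    qExpansion 1 (A : ℍ → ℂ) ≠ 0 := fun h =>
  hA0 (qNice_eq_of_qExpansion_eq (levelOne_mem_qNice A) (zero_mem _)
    (by rw [h]; exact (qExpansion_zero 1).symm))

/-- **Transfer, generic form (modular forms).** -/
theorem sigma_transfer_gen [Γ.IsArithmetic] (hΓ : Γ ≤ 𝒮ℒ) (h1 : (1 : ℝ) ∈ Γ.strictPeriods)
    (σ : ℂ →+* ℂ) (t : ModularForm Γ 4) (ht : (qExpansion 1 t).map σ = qExpansion 1 t)
    {k : ℤ} (f : ModularForm Γ k)
    (hcr : ∃ (μ : ℕ) (w : ℤ) (r : ModularForm 𝒮ℒ w)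
      (rj : (j : ℕ) → ModularForm 𝒮ℒ (w + k - 4 * j)),
      r ≠ 0 ∧ ∀ z, r z * f z = ∑ j ∈ Finset.range μ, rj j z * t z ^ j) :
    ∃ g : ModularForm Γ k, qExpansion 1 g = (qExpansion 1 f).map σ := by
  obtain ⟨μ₁, w, r, rj, hr, hcr⟩ := hcr
  obtain ⟨μ, c, hc0, hrel⟩ := exists_monic_levelOne_gen f
  obtain ⟨A, B, c', hA0, hBN, hBinv, hc'0, -, hrel', EB⟩ := transfer_data hΓ h1 σ t ht f
    (modularForm_mem_qNice h1 f) μ₁ w r rj hr hcr μ c hc0 hrel
  obtain ⟨F, hF⟩ := exists_modularForm_of_rel hΓ A hA0 hBN.2.1 hBinv c' hc'0 hrel'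
  refine ⟨F, ?_⟩
  have hAF : (A : ℍ → ℂ) * F = B := funext hF
  have h2 : qExpansion 1 A * qExpansion 1 F = qExpansion 1 A * (qExpansion 1 f).map σ := by
    rw [← transfer_qexp_mul (levelOne_mem_qNice A) (modularForm_mem_qNice h1 F), hAF, EB]
  exact mul_left_cancel₀ (transfer_qexp_ne_zero hA0) h2

/-- **Transfer, generic form (cusp forms).** -/
theorem sigma_transfer_cusp_gen [Γ.IsArithmetic] (hΓ : Γ ≤ 𝒮ℒ) (h1 : (1 : ℝ) ∈ Γ.strictPeriods)
    (σ : ℂ →+* ℂ) (t : ModularForm Γ 4) (ht : (qExpansion 1 t).map σ = qExpansion 1 t)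
    {k : ℤ} (f : CuspForm Γ k)
    (hcr : ∃ (μ : ℕ) (w : ℤ) (r : ModularForm 𝒮ℒ w)
      (rj : (j : ℕ) → ModularForm 𝒮ℒ (w + k - 4 * j)),
      r ≠ 0 ∧ ∀ z, r z * f z = ∑ j ∈ Finset.range μ, rj j z * t z ^ j) :
    ∃ g : CuspForm Γ k, qExpansion 1 g = (qExpansion 1 f).map σ := by
  obtain ⟨μ₁, w, r, rj, hr, hcr⟩ := hcr
  obtain ⟨μ, c, hc0, hcz, hrel⟩ := exists_monic_levelOne_cusp_gen f
  obtain ⟨A, B, c', hA0, hBN, hBinv, hc'0, hc', hrel', EB⟩ := transfer_data hΓ h1 σ t ht f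
    (modularForm_mem_qNice h1 f) μ₁ w r rj hr hcr μ c hc0 hrel
  have hc'z : ∀ i, 1 ≤ i → IsZeroAtImInfty (c' i) := by
    intro i hi
    have h0 : (qExpansion 1 (c i)).coeff 0 = 0 := by
      rw [qExpansion_coeff_zero one_pos (qNice_analyticAt (levelOne_mem_qNice (c i)))
        (levelOne_mem_qNice (c i)).1]
      exact (hcz i hi).valueAtInfty_eq_zero
    have h0' : (qExpansion 1 (c' i)).coeff 0 = 0 := by
      rw [hc' i, PowerSeries.coeff_map, h0, map_zero]
    exact CuspFormClass.zero_at_infty (toCuspForm (c' i) h0')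
  obtain ⟨F, hF⟩ := exists_cuspForm_of_rel hΓ A hA0 hBN.2.1 hBinv c' hc'0 hc'z hrel'
  refine ⟨F, ?_⟩
  have hAF : (A : ℍ → ℂ) * F = B := funext hF
  have h2 : qExpansion 1 A * qExpansion 1 F = qExpansion 1 A * (qExpansion 1 f).map σ := by
    rw [← transfer_qexp_mul (levelOne_mem_qNice A) (modularForm_mem_qNice h1 F), hAF, EB]
  exact mul_left_cancel₀ (transfer_qexp_ne_zero hA0) h2

theorem transfer_Gamma0_le (N : ℕ) :
    (CongruenceSubgroup.Gamma0 N : Subgroup (GL (Fin 2) ℝ)) ≤ 𝒮ℒ :=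
  Subgroup.map_le_range _ _

theorem transfer_tForm_map (N : ℕ) [NeZero N] (σ : ℂ →+* ℂ) :
    (qExpansion 1 (tForm N)).map σ = qExpansion 1 (tForm N) :=
  levelone_map_of_int σ (tForm_qExpansion_int N)

/-- **P4.** Ring endomorphisms of `ℂ` act on `q`-expansions of modular forms on `Γ₀(N)`. -/
theorem sigma_transfer (N : ℕ) [NeZero N] (k : ℤ) (σ : ℂ →+* ℂ)
    (f : ModularForm (CongruenceSubgroup.Gamma0 N : Subgroup (GL (Fin 2) ℝ)) k) :
    ∃ g : ModularForm (CongruenceSubgroup.Gamma0 N : Subgroup (GL (Fin 2) ℝ)) k,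
      qExpansion 1 g = (qExpansion 1 f).map σ :=
  sigma_transfer_gen (transfer_Gamma0_le N) (CongruenceSubgroup.one_mem_strictPeriods_Gamma0 N) σ
    (tForm N) (transfer_tForm_map N σ) f (exists_cramer N k f)

/-- **P4, cusp forms.** Ring endomorphisms of `ℂ` act on `q`-expansions of cusp forms on
`Γ₀(N)`. -/
theorem sigma_transfer_cusp (N : ℕ) [NeZero N] (k : ℤ) (σ : ℂ →+* ℂ)
    (f : CuspForm (CongruenceSubgroup.Gamma0 N : Subgroup (GL (Fin 2) ℝ)) k) :
    ∃ g : CuspForm (CongruenceSubgroup.Gamma0 N : Subgroup (GL (Fin 2) ℝ)) k,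
      ∀ n, ModularFormClass.qCoeff g n = σ (ModularFormClass.qCoeff f n) := by
  obtain ⟨g, hg⟩ := sigma_transfer_cusp_gen (transfer_Gamma0_le N)
    (CongruenceSubgroup.one_mem_strictPeriods_Gamma0 N) σ (tForm N) (transfer_tForm_map N σ) f
    (exists_cramer N k (ModularFormClass.modularForm f))
  refine ⟨g, fun n => ?_⟩
  rw [ModularFormClass.qCoeff, ModularFormClass.qCoeff, hg, PowerSeries.coeff_map]

end Fermat.Agent.S23
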