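import Mathlib
import Fermat.Agent.S23.Defs
import Fermat.Agent.S23.QExp
import Fermat.Agent.S23.LevelOne
import Fermat.Agent.S23.T
import Fermat.Agent.S23.Esymm
import Fermat.Agent.S23.Cramer
import Fermat.Agent.S23.Transfer
import Fermat.Agent.S23.Helper47Cusp
import Fermat.Agent.S23.Denominators

/-!
# P7: final assembly — `CuspForm.HasIntegralStructure N k` for all weights `k`
-/

set_option autoImplicit false

open UpperHalfPlane ModularForm
open scoped MatrixGroups

namespace Fermat.Agent.S23

/-- Bounded denominators: a cusp form on `Γ₀(N)` with rational `q`-expansion has a common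
denominator. -/
theorem final_hden (N : ℕ) [NeZero N] (k : ℤ)
    (f : CuspForm (CongruenceSubgroup.Gamma0 N : Subgroup (GL (Fin 2) ℝ)) k)
    (hf : ∀ n, ∃ r : ℚ, ModularFormClass.qCoeff f n = (r : ℂ)) :
    ∃ D : ℤ, D ≠ 0 ∧ ∀ n, ∃ m : ℤ, (D : ℂ) * ModularFormClass.qCoeff f n = (m : ℂ) := by
  classical
  -- the data
  set F : ModularForm (CongruenceSubgroup.Gamma0 N : Subgroup (GL (Fin 2) ℝ)) k :=
    ModularFormClass.modularForm f with hF
  have hFf : (F : ℍ → ℂ) = f := rfl
  obtain ⟨μ₁, w, r, rj, hr, hrel⟩ := exists_cramer N k F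
  obtain ⟨μ₂, c, hc0, hmonic, -⟩ := exists_monic_levelOne_cusp N k f
  -- elements of `qNice`
  let fN : qNice := ⟨f, gamma0_cusp_mem_qNice f⟩
  let rN : qNice := ⟨r, levelOne_mem_qNice r⟩
  let rjN : ℕ → qNice := fun j => ⟨rj j, levelOne_mem_qNice (rj j)⟩
  let tN : qNice := ⟨tForm N, gamma0_mem_qNice (tForm N)⟩
  let cN : ℕ → qNice := fun i => ⟨c i, levelOne_mem_qNice (c i)⟩
  have e1 : rN * fN = ∑ j ∈ Finset.range μ₁, rjN j * tN ^ j := by
    apply Subtype.ext
    funext z
    have := hrel z
    simp only [hFf] at this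
    simpa [rN, fN, rjN, tN] using this
  have e2 : ∑ i ∈ Finset.range (μ₂ + 1), cN i * fN ^ (μ₂ - i) = 0 := by
    apply Subtype.ext
    funext z
    simpa [cN, fN] using hmonic z
  have e3 : cN 0 = 1 := by
    apply Subtype.ext
    funext z
    simpa [cN] using hc0 z
  have q1 := congrArg qExpHom e1
  have q2 := congrArg qExpHom e2
  have q3 := congrArg qExpHom e3
  simp only [map_mul, map_sum, map_pow, map_zero, map_one, qExpHom_apply] at q1 q2 q3
  -- apply the denominator lemma
  have ht : qExpansion 1 (tForm N) ∈ IntSeries := fun n => tForm_qExpansion_int N n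
  refine bounded_denominators (qExpansion 1 f) hf (qExpansion 1 r)
    (∑ j ∈ Finset.range μ₁, qExpansion 1 (rj j) * qExpansion 1 (tForm N) ^ j)
    (levelOne_qExpansion_mem_span r) ?_ ?_ q1 μ₂ (fun i => qExpansion 1 (c i))
    (fun i => levelOne_qExpansion_mem_span (c i)) q3 q2
  · refine Submodule.sum_mem _ fun j _ => span_intSeries_mul (levelOne_qExpansion_mem_span (rj j))
      (Submodule.subset_span (levelone_intSeries_pow ht j))
  · exact fun h => hr ((ModularForm.qExpansion_eq_zero_iff one_pos one_mem_strictPeriods_SL r).mp h)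

/-- **Integral structure in every weight.** -/
theorem hasIntegralStructure_all (N : ℕ) [NeZero N] (k : ℤ) : CuspForm.HasIntegralStructure N k :=
  hasIntegralStructure_of N k (sigma_transfer_cusp N k) (final_hden N k)

end Fermat.Agent.S23
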